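import Fermat.Agent.S37.Defs
import Fermat.Agent.S18.Defs
import Fermat.Agent.S18.ModDefs

/-!
# S37, route II: definitions (owner helper105)

Everything is stated for an arbitrary function field `F / K`, a valuation subring `A` of the
constant field `K` and a coordinate `x : F`; the SAME definitions are used over `ℚ̄` and over
number fields.

* `IsRat v`        : the place `v` is `K`-rational
* `resV A c`       : residue class of `c` modulo the maximal ideal of `A` (junk `0` outside `A`)
* `InFin A x P`    : `x(P) ∈ A`
* `red A x P`      : the reduction of `P`: `b ↦ b(P) mod 𝔪_A` on the chart `S18.chart A x`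
                     (if `x(P) ∈ A`) resp. on `S18.chart A x⁻¹` (otherwise)
* `redDiv A x`     : reduction of divisors
* `GoodModel`      : the package of facts delivered by KL-A for one number field
* `IsOne A N e`    : `e` is a constant times `P / Q` where `P`, `Q` have `A`-integral
                     `q`-expansions with the same nonzero reduction
-/

set_option autoImplicit false

noncomputable section

namespace Fermat.Agent.S37.II

open AlgebraicCurve ModularCurve Fermat.Agent.S24 Fermat.Agent.S18 IntermediateField

section General

variable {K F : Type*} [Field K] [Field F] [Algebra K F]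

/-- the place `v` is rational: every function regular at `v` has a value in `K`. -/
def IsRat (v : Place K F) : Prop :=
  ∀ f : F, 0 ≤ v.ord f → ∃ c : K, f = algebraMap K F c ∨ 0 < v.ord (f - algebraMap K F c)

variable (A : ValuationSubring K)

open Classical in
/-- reduction modulo the maximal ideal of `A`, extended by `0` -/
def resV (c : K) : IsLocalRing.ResidueField A :=
  if h : c ∈ A then IsLocalRing.residue A ⟨c, h⟩ else 0

/-- the rational place `w` is centred at the maximal ideal `𝔫` of the chart `B` -/
def Centered (B : Subring F) (𝔫 : Ideal B) (w : Place K F) : Prop :=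
  IsRat w ∧ (∀ b : B, 0 ≤ w.ord (b : F) ∧ val w (b : F) ∈ A) ∧
    ∀ b : B, b ∈ 𝔫 ↔ val w (b : F) ∈ A.nonunits

omit A in
/-- the valuation ring of `w` contains the local ring of `B` at `𝔫` -/
def Through (B : Subring F) (𝔫 : Ideal B) (w : Place K F) : Prop :=
  ∀ b : B, 0 ≤ w.ord (b : F) ∧ (b ∉ 𝔫 → w.ord (b : F) = 0)

variable (x : F)

/-- the place `P` satisfies `x(P) ∈ A` -/
def InFin (P : Place K F) : Prop := 0 ≤ P.ord x ∧ val P x ∈ A

/-- the target of the reduction map on places -/
abbrev Pt : Type _ :=
  (chart A.toSubring x → IsLocalRing.ResidueField A) ⊕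
    (chart A.toSubring x⁻¹ → IsLocalRing.ResidueField A)

open Classical in
/-- the reduction of a place -/
def red (P : Place K F) : Pt A x :=
  if InFin A x P then Sum.inl fun b => resV A (val P b.1) else Sum.inr fun b => resV A (val P b.1)

/-- reduction of divisors -/
def redDiv : Divisor K F →+ (Pt A x →₀ ℤ) := Finsupp.mapDomain.addMonoidHom (red A x)

theorem redDiv_apply (D : Divisor K F) : redDiv A x D = Finsupp.mapDomain (red A x) D := rfl

theorem redDiv_single (P : Place K F) (n : ℤ) :
    redDiv A x (Finsupp.single P n) = Finsupp.single (red A x P) n :=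
  Finsupp.mapDomain_single

/-- The facts on the arithmetic surface with charts `chart A x`, `chart A x⁻¹` (`A` a discrete
valuation ring with uniformiser `ϖ₀`, `Ow` the valuation ring of the special fibre) which are
delivered by the KL-A machinery (`Fermat/Agent/S18`). -/
structure GoodModel (ϖ₀ : K) (Ow : ValuationSubring F) : Prop where
  vert : IsVert A ϖ₀ Ow K⟮x⟯
  coord : IsCoord A ϖ₀ Ow K⟮x⟯ x
  coord' : IsCoord A ϖ₀ Ow K⟮x⟯ x⁻¹
  chart₁ : IsChart Ow (algebraMap K F ϖ₀) (chart A.toSubring x)
  chart₂ : IsChart Ow (algebraMap K F ϖ₀) (chart A.toSubring x⁻¹)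
  cover : IsCover (A.toSubring.map (algebraMap K F)) x (chart A.toSubring x)
    (chart A.toSubring x⁻¹)

end General

section Modular

/-- `e` is congruent to a nonzero constant for the Gauss valuation attached to `A`. -/
def IsOne (A : ValuationSubring Kbar) (N : ℕ) (e : FN N) : Prop :=
  ∃ (d : Kbar) (P Q : LaurentSeries A) (hP : coeffMap A.subtype P ∈ modularFunctionFieldBar N)
    (hQ : coeffMap A.subtype Q ∈ modularFunctionFieldBar N),
    d ≠ 0 ∧ rho A P = rho A Q ∧ rho A Q ≠ 0 ∧
      e = algebraMap Kbar (FN N) d *
        ((⟨coeffMap A.subtype P, hP⟩ : modularFunctionFieldBar N) / ⟨coeffMap A.subtype Q, hQ⟩)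

end Modular

end Fermat.Agent.S37.II

end
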