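import Fermat.Agent.S37.II.Defs
import Fermat.Agent.S37.Val
import Fermat.Agent.S18.Chart.Const

/-!
# S37 route II, block VR: values of functions at RATIONAL places of `F / K` (`K` arbitrary)

Port of `S37/Val.lean`: the instances `[IsAlgClosed K] [FF.IsFF1 K F]` are replaced by the
hypothesis `hv : IsRat v`.

* `val_spec_rat`, `val_add_rat`, `val_mul_rat`, ... : `val v` is a ring homomorphism on `O_v`
* `resV_add`, `resV_mul`, ... : `resV A` is a ring homomorphism on `A`
* `compRat A v hv` : the composite valuation ring `{f | f ∈ O_v, f(v) ∈ A}`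
* `val_mem_of_mem_chart`, `inv_of_not_inFin`, `evChart`, `evChartInv`
-/

set_option autoImplicit false

noncomputable section

namespace Fermat.Agent.S37.II

open AlgebraicCurve Fermat.Agent.S24 Fermat.Agent.S18 IntermediateField Polynomial

section VR

variable {K F : Type*} [Field K] [Field F] [Algebra K F]

theorem isRat_of_isAlgClosed [IsAlgClosed K] [FF.IsFF1 K F] (v : Place K F) : IsRat v :=
  fun _ h => FF.exists_const_of_ord_nonneg v h

theorem val_spec_rat {v : Place K F} (hv : IsRat v) {f : F} (h : 0 ≤ v.ord f) :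
    f = algebraMap K F (val v f) ∨ 0 < v.ord (f - algebraMap K F (val v f)) := by
  obtain ⟨c, hc⟩ := hv f h
  rwa [val_eq_of hc]

theorem van_sub_val_rat {v : Place K F} (hv : IsRat v) {f : F} (h : 0 ≤ v.ord f) :
    Van v (f - algebraMap K F (val v f)) :=
  van_sub_iff.mpr (val_spec_rat hv h)

theorem val_add_rat {v : Place K F} (hv : IsRat v) {f g : F} (hf : 0 ≤ v.ord f)
    (hg : 0 ≤ v.ord g) : val v (f + g) = val v f + val v g := by
  apply val_eq_of_van
  have := (van_sub_val_rat hv hf).add (van_sub_val_rat hv hg)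
  rwa [map_add, add_sub_add_comm]

theorem val_neg_rat {v : Place K F} (hv : IsRat v) (f : F) : val v (-f) = - val v f := by
  by_cases hf : 0 ≤ v.ord f
  · apply val_eq_of_van
    have := (van_sub_val_rat hv hf).neg
    have e : -(f - algebraMap K F (val v f)) = -f - algebraMap K F (-val v f) := by
      rw [map_neg]; ring
    rwa [e] at this
  · rw [val_of_neg (not_le.mp hf), val_of_neg (by rw [FF.ord_neg]; exact not_le.mp hf), neg_zero]

theorem val_sub_rat {v : Place K F} (hv : IsRat v) {f g : F} (hf : 0 ≤ v.ord f)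
    (hg : 0 ≤ v.ord g) : val v (f - g) = val v f - val v g := by
  rw [sub_eq_add_neg, val_add_rat hv hf (ord_neg_nonneg hg), val_neg_rat hv, sub_eq_add_neg]

theorem val_mul_rat {v : Place K F} (hv : IsRat v) {f g : F} (hf : 0 ≤ v.ord f)
    (hg : 0 ≤ v.ord g) : val v (f * g) = val v f * val v g := by
  apply val_eq_of_van
  have h1 := (van_sub_val_rat hv hf).mul_right hg
  have h2 := Van.mul_left (ord_algebraMap_nonneg (v := v) (val v f)) (van_sub_val_rat hv hg)
  have := h1.add h2
  have e : (f - algebraMap K F (val v f)) * g +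
      algebraMap K F (val v f) * (g - algebraMap K F (val v g)) =
      f * g - algebraMap K F (val v f * val v g) := by
    rw [map_mul]; ring
  rwa [e] at this

theorem val_pow_rat {v : Place K F} (hv : IsRat v) {f : F} (hf : 0 ≤ v.ord f) (n : ℕ) :
    val v (f ^ n) = val v f ^ n := by
  induction n with
  | zero => simp
  | succ n ih => rw [pow_succ, val_mul_rat hv (ord_pow_nonneg hf n) hf, ih, pow_succ]

theorem val_prod_rat {v : Place K F} (hv : IsRat v) {ι : Type*} (s : Finset ι) (f : ι → F)
    (h : ∀ i ∈ s, 0 ≤ v.ord (f i)) : val v (∏ i ∈ s, f i) = ∏ i ∈ s, val v (f i) := by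
  classical
  induction s using Finset.induction_on with
  | empty => simp
  | insert a s ha ih =>
    rw [Finset.prod_insert ha, Finset.prod_insert ha,
      val_mul_rat hv (h a (Finset.mem_insert_self a s))
        (ord_prod_nonneg s f fun i hi => h i (Finset.mem_insert_of_mem hi)),
      ih fun i hi => h i (Finset.mem_insert_of_mem hi)]

theorem val_sum_rat {v : Place K F} (hv : IsRat v) {ι : Type*} (s : Finset ι) (f : ι → F)
    (h : ∀ i ∈ s, 0 ≤ v.ord (f i)) : val v (∑ i ∈ s, f i) = ∑ i ∈ s, val v (f i) := by
  classical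
  induction s using Finset.induction_on with
  | empty => simp
  | insert a s ha ih =>
    rw [Finset.sum_insert ha, Finset.sum_insert ha,
      val_add_rat hv (h a (Finset.mem_insert_self a s))
        (ord_sum_nonneg s f fun i hi => h i (Finset.mem_insert_of_mem hi)),
      ih fun i hi => h i (Finset.mem_insert_of_mem hi)]

theorem val_eq_zero_iff_rat {v : Place K F} (hv : IsRat v) {f : F} (h : 0 ≤ v.ord f) :
    val v f = 0 ↔ f = 0 ∨ 0 < v.ord f := by
  constructor
  · intro h0
    have := val_spec_rat hv h
    rwa [h0, map_zero, sub_zero] at this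
  · intro h0
    exact val_of_van h0

theorem val_ne_zero_of_ord_eq_zero_rat {v : Place K F} (hv : IsRat v) {f : F} (hf : f ≠ 0)
    (h : v.ord f = 0) : val v f ≠ 0 := by
  intro h0
  rcases (val_eq_zero_iff_rat hv h.ge).mp h0 with h1 | h1
  · exact hf h1
  · omega

theorem val_inv_rat {v : Place K F} (hv : IsRat v) {f : F} (h : v.ord f = 0) :
    val v f⁻¹ = (val v f)⁻¹ := by
  rcases eq_or_ne f 0 with rfl | hf
  · simp
  have h' : v.ord f⁻¹ = 0 := by rw [v.ord_inv, h, neg_zero]
  have h1 := val_mul_rat hv h.ge h'.ge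
  rw [mul_inv_cancel₀ hf, val_one] at h1
  exact eq_inv_of_mul_eq_one_right h1.symm

theorem val_div_rat {v : Place K F} (hv : IsRat v) {f g : F} (hf : 0 ≤ v.ord f)
    (hg : v.ord g = 0) : val v (f / g) = val v f / val v g := by
  rw [div_eq_mul_inv, val_mul_rat hv hf (by rw [v.ord_inv, hg, neg_zero]), val_inv_rat hv hg,
    div_eq_mul_inv]

theorem val_smul_rat {v : Place K F} (hv : IsRat v) (c : K) {f : F} (hf : 0 ≤ v.ord f) :
    val v (c • f) = c * val v f := by
  rw [Algebra.smul_def, val_mul_rat hv (ord_algebraMap_nonneg c) hf, val_algebraMap]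

theorem ord_aeval_nonneg_rat {v : Place K F} {f : F} (hf : 0 ≤ v.ord f) (p : K[X]) :
    0 ≤ v.ord (aeval f p) := by
  rw [aeval_eq_sum_range]
  refine ord_sum_nonneg _ _ fun i _ => ?_
  rw [Algebra.smul_def]
  exact ord_mul_nonneg (ord_algebraMap_nonneg _) (ord_pow_nonneg hf i)

/-- values commute with polynomials with constant coefficients -/
theorem val_aeval_rat {v : Place K F} (hv : IsRat v) {f : F} (hf : 0 ≤ v.ord f) (p : K[X]) :
    val v (aeval f p) = p.eval (val v f) := by
  rw [aeval_eq_sum_range, eval_eq_sum_range, val_sum_rat hv]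
  · refine Finset.sum_congr rfl fun i _ => ?_
    rw [val_smul_rat hv _ (ord_pow_nonneg hf i), val_pow_rat hv hf]
  · intro i _
    rw [Algebra.smul_def]
    exact ord_mul_nonneg (ord_algebraMap_nonneg _) (ord_pow_nonneg hf i)

/-- `val v` as a ring homomorphism on the valuation ring of the rational place `v`. -/
def valHomRat (v : Place K F) (hv : IsRat v) : v.toValuationSubring →+* K where
  toFun f := val v (f : F)
  map_one' := val_one
  map_mul' f g := val_mul_rat hv (FF.ord_nonneg_of_mem v f.2) (FF.ord_nonneg_of_mem v g.2)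
  map_zero' := val_zero
  map_add' f g := val_add_rat hv (FF.ord_nonneg_of_mem v f.2) (FF.ord_nonneg_of_mem v g.2)

@[simp] theorem valHomRat_apply {v : Place K F} (hv : IsRat v) (f : v.toValuationSubring) :
    valHomRat v hv f = val v (f : F) := rfl

/-! ## `resV` -/

theorem resV_of_mem (A : ValuationSubring K) {c : K} (h : c ∈ A) :
    resV A c = IsLocalRing.residue A ⟨c, h⟩ := dif_pos h

theorem resV_of_not_mem (A : ValuationSubring K) {c : K} (h : c ∉ A) : resV A c = 0 := dif_neg h

theorem resV_coe (A : ValuationSubring K) (c : A) : resV A (c : K) = IsLocalRing.residue A c :=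
  resV_of_mem A c.2

@[simp] theorem resV_zero (A : ValuationSubring K) : resV A 0 = 0 := by
  rw [resV_of_mem A A.zero_mem]
  exact map_zero (IsLocalRing.residue A)

@[simp] theorem resV_one (A : ValuationSubring K) : resV A 1 = 1 := by
  rw [resV_of_mem A A.one_mem]
  exact map_one (IsLocalRing.residue A)

theorem resV_add (A : ValuationSubring K) {a b : K} (ha : a ∈ A) (hb : b ∈ A) :
    resV A (a + b) = resV A a + resV A b := by
  rw [resV_of_mem A ha, resV_of_mem A hb, resV_of_mem A (A.add_mem _ _ ha hb), ← map_add]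
  rfl

theorem resV_mul (A : ValuationSubring K) {a b : K} (ha : a ∈ A) (hb : b ∈ A) :
    resV A (a * b) = resV A a * resV A b := by
  rw [resV_of_mem A ha, resV_of_mem A hb, resV_of_mem A (A.mul_mem _ _ ha hb), ← map_mul]
  rfl

theorem resV_neg (A : ValuationSubring K) {a : K} (ha : a ∈ A) : resV A (-a) = - resV A a := by
  rw [resV_of_mem A ha, resV_of_mem A (A.neg_mem _ ha), ← map_neg]
  rfl

theorem resV_sub (A : ValuationSubring K) {a b : K} (ha : a ∈ A) (hb : b ∈ A) :
    resV A (a - b) = resV A a - resV A b := by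
  rw [sub_eq_add_neg, resV_add A ha (A.neg_mem _ hb), resV_neg A hb, sub_eq_add_neg]

theorem resV_pow (A : ValuationSubring K) {a : K} (ha : a ∈ A) (n : ℕ) :
    resV A (a ^ n) = resV A a ^ n := by
  rw [resV_of_mem A ha, resV_of_mem A (pow_mem ha n), ← map_pow]
  rfl

theorem resV_prod (A : ValuationSubring K) {ι : Type*} (s : Finset ι) (f : ι → K)
    (h : ∀ i ∈ s, f i ∈ A) : resV A (∏ i ∈ s, f i) = ∏ i ∈ s, resV A (f i) := by
  classical
  induction s using Finset.induction_on with
  | empty => simp
  | insert x s hx ih =>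
    rw [Finset.prod_insert hx, Finset.prod_insert hx,
      resV_mul A (h x (Finset.mem_insert_self x s))
        (prod_mem fun i hi => h i (Finset.mem_insert_of_mem hi)),
      ih fun i hi => h i (Finset.mem_insert_of_mem hi)]

theorem resV_sum (A : ValuationSubring K) {ι : Type*} (s : Finset ι) (f : ι → K)
    (h : ∀ i ∈ s, f i ∈ A) : resV A (∑ i ∈ s, f i) = ∑ i ∈ s, resV A (f i) := by
  classical
  induction s using Finset.induction_on with
  | empty => simp
  | insert x s hx ih =>
    rw [Finset.sum_insert hx, Finset.sum_insert hx,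
      resV_add A (h x (Finset.mem_insert_self x s))
        (sum_mem fun i hi => h i (Finset.mem_insert_of_mem hi)),
      ih fun i hi => h i (Finset.mem_insert_of_mem hi)]

theorem resV_eq_zero_iff (A : ValuationSubring K) {c : K} (h : c ∈ A) :
    resV A c = 0 ↔ c ∈ A.nonunits := by
  rw [resV_of_mem A h, IsLocalRing.residue_eq_zero_iff,
    ← ValuationSubring.coe_mem_nonunits_iff]

theorem resV_of_mem_nonunits (A : ValuationSubring K) {c : K} (hc : c ∈ A.nonunits) :
    resV A c = 0 :=
  (resV_eq_zero_iff A (ValuationSubring.nonunits_subset hc)).mpr hc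

theorem resV_eq_iff (A : ValuationSubring K) {c c' : K} (h : c ∈ A) (h' : c' ∈ A) :
    resV A c = resV A c' ↔ c - c' ∈ A.nonunits := by
  rw [← resV_eq_zero_iff A (A.sub_mem h h'), resV_sub A h h', sub_eq_zero]

theorem resV_surjective (A : ValuationSubring K) : Function.Surjective (resV A) := by
  intro x
  obtain ⟨y, rfl⟩ := IsLocalRing.residue_surjective x
  exact ⟨y, resV_coe A y⟩

theorem exists_mem_resV_eq (A : ValuationSubring K) (x : IsLocalRing.ResidueField A) :
    ∃ a ∈ A, resV A a = x := by
  obtain ⟨y, rfl⟩ := IsLocalRing.residue_surjective x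
  exact ⟨y, y.2, resV_coe A y⟩

/-! ## the composite valuation ring -/

/-- the composite of the valuation ring of the rational place `v` with the valuation ring `A` of
the constant (= residue) field: functions regular at `v` with value in `A`. -/
def compRat (A : ValuationSubring K) (v : Place K F) (hv : IsRat v) : ValuationSubring F where
  carrier := {f | 0 ≤ v.ord f ∧ val v f ∈ A}
  mul_mem' := fun {f g} hf hg =>
    ⟨ord_mul_nonneg hf.1 hg.1, by rw [val_mul_rat hv hf.1 hg.1]; exact A.mul_mem _ _ hf.2 hg.2⟩
  one_mem' := ⟨by simp, by rw [val_one]; exact A.one_mem⟩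
  add_mem' := fun {f g} hf hg =>
    ⟨ord_add_nonneg hf.1 hg.1, by rw [val_add_rat hv hf.1 hg.1]; exact A.add_mem _ _ hf.2 hg.2⟩
  zero_mem' := ⟨by simp, by rw [val_zero]; exact A.zero_mem⟩
  neg_mem' := fun {f} hf => ⟨ord_neg_nonneg hf.1, by rw [val_neg_rat hv]; exact A.neg_mem _ hf.2⟩
  mem_or_inv_mem' := by
    intro f
    rcases lt_trichotomy (v.ord f) 0 with h | h | h
    · right
      have h' : 0 < v.ord f⁻¹ := by rw [v.ord_inv]; omega
      exact ⟨h'.le, by rw [val_of_pos h']; exact A.zero_mem⟩
    · rcases A.mem_or_inv_mem (val v f) with h1 | h1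
      · exact Or.inl ⟨h.ge, h1⟩
      · right
        exact ⟨by rw [v.ord_inv, h, neg_zero], by rw [val_inv_rat hv h]; exact h1⟩
    · exact Or.inl ⟨h.le, by rw [val_of_pos h]; exact A.zero_mem⟩

theorem mem_compRat {A : ValuationSubring K} {v : Place K F} {hv : IsRat v} {f : F} :
    f ∈ compRat A v hv ↔ 0 ≤ v.ord f ∧ val v f ∈ A := Iff.rfl

theorem mem_nonunits_compRat {A : ValuationSubring K} {v : Place K F} {hv : IsRat v} {f : F} :
    f ∈ (compRat A v hv).nonunits ↔ 0 ≤ v.ord f ∧ val v f ∈ A.nonunits := by
  rw [ValuationSubring.mem_nonunits_iff_or]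
  constructor
  · rintro (rfl | h)
    · exact ⟨by simp, by rw [val_zero]; exact zero_mem _⟩
    · rcases lt_trichotomy (v.ord f) 0 with h0 | h0 | h0
      · exfalso
        apply h
        have h' : 0 < v.ord f⁻¹ := by rw [v.ord_inv]; omega
        exact ⟨h'.le, by rw [val_of_pos h']; exact A.zero_mem⟩
      · refine ⟨h0.ge, ?_⟩
        rw [ValuationSubring.mem_nonunits_iff_or]
        right
        intro h1
        exact h ⟨by rw [v.ord_inv, h0, neg_zero], by rw [val_inv_rat hv h0]; exact h1⟩
      · exact ⟨h0.le, by rw [val_of_pos h0]; exact zero_mem _⟩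
  · rintro ⟨h0, h1⟩
    by_cases hf : f = 0
    · exact Or.inl hf
    · right
      rintro ⟨h2, h3⟩
      rw [v.ord_inv] at h2
      have h4 : v.ord f = 0 := by omega
      rw [val_inv_rat hv h4] at h3
      rcases A.mem_nonunits_iff_or.mp h1 with h5 | h5
      · exact val_ne_zero_of_ord_eq_zero_rat hv hf h4 h5
      · exact h5 h3

theorem algebraMap_mem_compRat {A : ValuationSubring K} {v : Place K F} {hv : IsRat v} {a : K}
    (ha : a ∈ A) : algebraMap K F a ∈ compRat A v hv :=
  ⟨ord_algebraMap_nonneg a, by rwa [val_algebraMap]⟩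

theorem algebraMap_mem_compRat_iff {A : ValuationSubring K} {v : Place K F} {hv : IsRat v}
    {a : K} : algebraMap K F a ∈ compRat A v hv ↔ a ∈ A :=
  ⟨fun h => by simpa using h.2, algebraMap_mem_compRat⟩

theorem compRat_le {A : ValuationSubring K} {v : Place K F} {hv : IsRat v} :
    compRat A v hv ≤ v.toValuationSubring := fun _ hf => FF.mem_of_ord_nonneg v hf.1

/-- evaluation at `v` followed by reduction modulo the maximal ideal of `A` -/
def evRat (A : ValuationSubring K) (v : Place K F) (hv : IsRat v) :
    compRat A v hv →+* IsLocalRing.ResidueField A where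
  toFun b := resV A (val v b.1)
  map_one' := by
    show resV A (val v (1 : F)) = 1
    rw [val_one, resV_one]
  map_mul' b c := by
    show resV A (val v (b.1 * c.1)) = _
    rw [val_mul_rat hv b.2.1 c.2.1, resV_mul A b.2.2 c.2.2]
  map_zero' := by
    show resV A (val v (0 : F)) = 0
    rw [val_zero, resV_zero]
  map_add' b c := by
    show resV A (val v (b.1 + c.1)) = _
    rw [val_add_rat hv b.2.1 c.2.1, resV_add A b.2.2 c.2.2]

@[simp] theorem evRat_apply (A : ValuationSubring K) (v : Place K F) (hv : IsRat v)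
    (b : compRat A v hv) : evRat A v hv b = resV A (val v b.1) := rfl

theorem evRat_surjective (A : ValuationSubring K) (v : Place K F) (hv : IsRat v) :
    Function.Surjective (evRat A v hv) := by
  intro x
  obtain ⟨a, ha, rfl⟩ := exists_mem_resV_eq A x
  refine ⟨⟨algebraMap K F a, algebraMap_mem_compRat ha⟩, ?_⟩
  rw [evRat_apply, val_algebraMap]

theorem evRat_eq_zero_iff (A : ValuationSubring K) (v : Place K F) (hv : IsRat v)
    (b : compRat A v hv) : evRat A v hv b = 0 ↔ (b : F) ∈ (compRat A v hv).nonunits := by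
  rw [evRat_apply, resV_eq_zero_iff A b.2.2, mem_nonunits_compRat]
  exact ⟨fun h => ⟨b.2.1, h⟩, fun h => h.2⟩

/-! ## evaluation of the charts -/

theorem polyRing_le_compRat (A : ValuationSubring K) (z : F) (v : Place K F) (hv : IsRat v)
    (h : z ∈ compRat A v hv) : polyRing A.toSubring z ≤ (compRat A v hv).toSubring := by
  intro b hb
  rw [mem_polyRing_iff] at hb
  obtain ⟨p, hp, rfl⟩ := hb
  rw [aeval_eq_sum_range]
  refine (compRat A v hv).sum_mem fun i _ => ?_
  rw [Algebra.smul_def]
  exact (compRat A v hv).mul_mem _ _ (algebraMap_mem_compRat (hp i)) ((compRat A v hv).pow_mem h i)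

theorem chart_le_compRat (A : ValuationSubring K) (z : F) (v : Place K F) (hv : IsRat v)
    (h : z ∈ compRat A v hv) : chart A.toSubring z ≤ (compRat A v hv).toSubring := fun _ hb =>
  mem_valuationSubring_of_isIntegral (compRat A v hv) (polyRing A.toSubring z)
    (polyRing_le_compRat A z v hv h) hb

/-- functions integral over `A[z]` take values in `A` at the rational places with `z(v) ∈ A`
(the composite valuation ring `{f | f regular at v, f(v) ∈ A}` is integrally closed) -/
theorem val_mem_of_mem_chart (A : ValuationSubring K) (z : F) (v : Place K F) (hv : IsRat v)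
    (h : InFin A z v) : ∀ b ∈ chart A.toSubring z, 0 ≤ v.ord b ∧ val v b ∈ A :=
  fun _ hb => chart_le_compRat A z v hv h hb

/-- outside the finite region `x⁻¹` is regular and takes a value in the maximal ideal -/
theorem inv_of_not_inFin (A : ValuationSubring K) (x : F) (v : Place K F) (hv : IsRat v)
    (h : ¬ InFin A x v) : 0 ≤ v.ord x⁻¹ ∧ val v x⁻¹ ∈ A.nonunits := by
  rw [← mem_nonunits_compRat (hv := hv), ValuationSubring.inv_mem_nonunits_iff]
  exact Or.inr h

theorem inFin_inv_of_not_inFin (A : ValuationSubring K) (x : F) (v : Place K F) (hv : IsRat v)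
    (h : ¬ InFin A x v) : InFin A x⁻¹ v :=
  ⟨(inv_of_not_inFin A x v hv h).1, ValuationSubring.nonunits_subset (inv_of_not_inFin A x v hv h).2⟩

/-- functions integral over `A[x⁻¹]` take values in `A` at the rational places outside the finite
region -/
theorem val_mem_of_mem_chart_inv (A : ValuationSubring K) (x : F) (v : Place K F) (hv : IsRat v)
    (h : ¬ InFin A x v) : ∀ b ∈ chart A.toSubring x⁻¹, 0 ≤ v.ord b ∧ val v b ∈ A :=
  val_mem_of_mem_chart A x⁻¹ v hv (inFin_inv_of_not_inFin A x v hv h)

theorem const_mem_chart (A : ValuationSubring K) (z : F) {a : K} (ha : a ∈ A) :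
    algebraMap K F a ∈ chart A.toSubring z := by
  apply polyRing_le_chart
  rw [mem_polyRing_iff]
  refine ⟨C a, fun i => ?_, aeval_C _ _⟩
  rw [coeff_C]
  split_ifs
  · exact ha
  · exact A.zero_mem

theorem coord_mem_chart (A : ValuationSubring K) (z : F) : z ∈ chart A.toSubring z := by
  apply polyRing_le_chart
  rw [mem_polyRing_iff]
  refine ⟨Polynomial.X, fun i => ?_, aeval_X _⟩
  rw [coeff_X]
  split_ifs
  · exact A.one_mem
  · exact A.zero_mem

/-- evaluation at `v` followed by reduction, on the chart `chart A z` (`z(v) ∈ A`) -/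
def evChart (A : ValuationSubring K) (z : F) (v : Place K F) (hv : IsRat v) (h : InFin A z v) :
    chart A.toSubring z →+* IsLocalRing.ResidueField A :=
  (evRat A v hv).comp (Subring.inclusion (chart_le_compRat A z v hv h))

@[simp] theorem evChart_apply (A : ValuationSubring K) (z : F) (v : Place K F) (hv : IsRat v)
    (h : InFin A z v) (b : chart A.toSubring z) : evChart A z v hv h b = resV A (val v b.1) := rfl

theorem evChart_surjective (A : ValuationSubring K) (z : F) (v : Place K F) (hv : IsRat v)
    (h : InFin A z v) : Function.Surjective (evChart A z v hv h) := by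
  intro x
  obtain ⟨a, ha, rfl⟩ := exists_mem_resV_eq A x
  refine ⟨⟨algebraMap K F a, const_mem_chart A z ha⟩, ?_⟩
  rw [evChart_apply, val_algebraMap]

theorem red_inl_of_inFin (A : ValuationSubring K) (x : F) {P : Place K F} (hP : InFin A x P) :
    red A x P = Sum.inl fun b => resV A (val P b.1) := if_pos hP

theorem red_inr_of_not_inFin (A : ValuationSubring K) (x : F) {P : Place K F} (hP : ¬ InFin A x P) :
    red A x P = Sum.inr fun b => resV A (val P b.1) := if_neg hP

theorem red_eq_inl_evChart (A : ValuationSubring K) (x : F) {P : Place K F} (hv : IsRat P)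
    (hP : InFin A x P) : red A x P = Sum.inl fun b => evChart A x P hv hP b :=
  red_inl_of_inFin A x hP

theorem red_eq_inr_evChart (A : ValuationSubring K) (x : F) {P : Place K F} (hv : IsRat P)
    (hP : ¬ InFin A x P) : red A x P =
      Sum.inr fun b => evChart A x⁻¹ P hv (inFin_inv_of_not_inFin A x P hv hP) b :=
  red_inr_of_not_inFin A x hP

end VR

end Fermat.Agent.S37.II

end
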