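import Fermat.Agent.S37.II.DefsMod
import Fermat.Agent.S18.Export.IsChartBase
import Fermat.Agent.S18.Descent.DVRUnif
import Fermat.Agent.S18.Gauss.Field

/-!
# S37 route II, node GOOD: `GoodAt A B` from the landed KL-A export (helper127)
-/

set_option autoImplicit false

noncomputable section

namespace Fermat.Agent.S37.II

open AlgebraicCurve ModularCurve Fermat.Agent.S24 Fermat.Agent.S18 IntermediateField Polynomial
open Fermat.Agent.S18.Gauss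

/-- Every element of a Gauss valuation ring of a field with normal forms is a quotient of integral
series of the field, with a primitive denominator. -/
theorem goodAt_exists_quot {K₀ : Type*} [Field K₀] {A₀ : ValuationSubring K₀} {ϖ₀ : K₀}
    {L : IntermediateField K₀ (LaurentSeries K₀)} {Ow : ValuationSubring L}
    (h₀ : IsUnif A₀ ϖ₀) (hL : HasNf A₀ ϖ₀ L) (hG : IsGauss A₀ ϖ₀ L Ow) (u : L) (hu : u ∈ Ow) :
    ∃ (P Q : LaurentSeries A₀) (hP : coeffMap A₀.subtype P ∈ L)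
      (hQ : coeffMap A₀.subtype Q ∈ L),
      coeffMap (IsLocalRing.residue A₀) Q ≠ 0 ∧ u * (⟨_, hQ⟩ : L) = ⟨_, hP⟩ := by
  by_cases hu0 : u = 0
  · refine ⟨0, 1, by rw [map_zero]; exact zero_mem L, by rw [map_one]; exact one_mem L,
      by rw [map_one]; exact one_ne_zero, ?_⟩
    apply Subtype.ext
    rw [hu0]
    simp
  obtain ⟨n, P, Q, hP, hQ, hP0, hQ0, h⟩ := hL u u.2 (fun h => hu0 (Subtype.ext h))
  have hP' : (⟨_, hP⟩ : L) ≠ 0 := fun h => iota_ne_zero hP0 (congrArg Subtype.val h)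
  have h1 : u * ⟨_, hQ⟩ = algebraMap K₀ L ϖ₀ ^ n * ⟨_, hP⟩ := by
    apply Subtype.ext
    rw [← map_zpow₀]
    exact h
  have h2 : algebraMap K₀ L ϖ₀ ^ n = u * ⟨_, hQ⟩ * (⟨_, hP⟩ : L)⁻¹ := by
    rw [h1, mul_inv_cancel_right₀ hP']
  have h3 : algebraMap K₀ L ϖ₀ ^ n ∈ Ow := by
    rw [h2]
    exact mul_mem (mul_mem hu (hG.mem Q hQ)) (hG.inv_mem P hP hP0)
  have hn : 0 ≤ n := by
    by_contra hlt
    apply hG.unif.inv_notMem
    have : (algebraMap K₀ L ϖ₀)⁻¹ = algebraMap K₀ L ϖ₀ ^ n * algebraMap K₀ L ϖ₀ ^ (-n - 1) := by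
      rw [← zpow_add₀ hG.unif.ne_zero, ← zpow_neg_one]
      congr 1; ring
    rw [this]
    exact mul_mem h3 (hG.unif.zpow_mem (by omega))
  have hd : ϖ₀ ^ n ∈ A₀ := h₀.zpow_mem hn
  have e : coeffMap A₀.subtype (HahnSeries.C (⟨_, hd⟩ : A₀) * P) =
      cst (ϖ₀ ^ n) * S28.Export.iota A₀ P := by
    change S28.Export.iota A₀ _ = _
    rw [map_mul, iota_C]
  refine ⟨HahnSeries.C ⟨_, hd⟩ * P, Q, by rw [e]; exact mul_mem (cst_mem _) hP, hQ, hQ0, ?_⟩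
  apply Subtype.ext
  change (u : LaurentSeries K₀) * S28.Export.iota A₀ Q = coeffMap A₀.subtype (HahnSeries.C (⟨_, hd⟩ : A₀) * P)
  rw [e, h]

theorem goodAt {M ℓ : ℕ} [NeZero M] [Fact ℓ.Prime] (hℓ : ¬ ℓ ∣ M) (B : BaseData M ℓ)
    (A : ValuationSubring Kbar) (hA : A.LiesOverPrime ℓ) : GoodAt A B := by
  intro K₁ hK₁
  obtain ⟨ϖ₁, h₀, hℓA⟩ := exists_isUnif_comap A hA K₁
  obtain ⟨Ow, hG, h1, h2, h3, h4, h5, h6⟩ := Export.exists_good_model h₀ hℓ hℓA B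
  exact ⟨ϖ₁, Ow, ⟨h1, h2, h3, h4, h5, h6⟩, hG,
    fun u hu => goodAt_exists_quot h₀ (hasNf_FK h₀ M) hG u hu⟩

end Fermat.Agent.S37.II

end
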