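import Fermat.Agent.S37.II.ValRat
import Fermat.Agent.S18.Chart.Unif

/-!
# S37 route II: the centre of a rational place on a chart (task S37-II-Center)

* `through_of_centered`      (L0)
* `exists_center`            (L1)
* `centered_of_through`      (L1')
* `resV_val_eq_of_centered`  (L3)
-/

set_option autoImplicit false

noncomputable section

namespace Fermat.Agent.S37.II

open AlgebraicCurve Fermat.Agent.S24 Fermat.Agent.S18 IntermediateField Polynomial

section FL

variable {K F : Type*} [Field K] [Field F] [Algebra K F]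

variable {A : ValuationSubring K} {ϖ₀ : K} {Ow : ValuationSubring F}

/-- the constants of `A` lie in the chart -/
theorem Center_const_mem_chart (z : F) {a : K} (ha : a ∈ A) :
    algebraMap K F a ∈ chart A.toSubring z := by
  apply polyRing_le_chart
  rw [mem_polyRing_iff]
  refine ⟨C a, fun i => ?_, by simp⟩
  rw [coeff_C]
  split_ifs
  · exact ha
  · exact A.zero_mem

/-- the coordinate lies in the chart -/
theorem Center_coord_mem_chart (z : F) : z ∈ chart A.toSubring z := by
  apply polyRing_le_chart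
  rw [mem_polyRing_iff]
  refine ⟨Polynomial.X, fun i => ?_, by simp⟩
  rw [coeff_X]
  split_ifs
  · exact A.one_mem
  · exact A.zero_mem

theorem Center_zero_mem_nonunits : (0 : K) ∈ A.nonunits := by
  rw [ValuationSubring.mem_nonunits_iff, map_zero]
  exact zero_lt_one

theorem Center_neg_mem_nonunits {a : K} (h : a ∈ A.nonunits) : -a ∈ A.nonunits := by
  rw [ValuationSubring.mem_nonunits_iff] at h ⊢
  rwa [Valuation.map_neg]

/-- nonunits of `A` are divisible by the uniformiser -/
theorem Center_div_mem_of_nonunit (h₀ : IsUnif A ϖ₀) {a : K} (h : a ∈ A.nonunits) :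
    a / ϖ₀ ∈ A := by
  rcases eq_or_ne a 0 with rfl | ha0
  · rw [zero_div]
    exact A.zero_mem
  rw [ValuationSubring.mem_nonunits_iff] at h
  refine h₀.div_mem ((A.valuation_le_one_iff a).mp h.le) fun hinv => ?_
  have h1 := (A.valuation_le_one_iff a⁻¹).mpr hinv
  rw [map_inv₀] at h1
  have h2 : A.valuation a ≠ 0 := (Valuation.ne_zero_iff _).mpr ha0
  have h3 : 1 ≤ A.valuation a := (inv_le_one₀ (zero_lt_iff.mpr h2)).mp h1
  exact absurd h (not_lt.mpr h3)

/-- an element of `A` which is not a nonunit is invertible in `A` -/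
theorem Center_inv_mem_of_not_nonunit {a : K} (ha : a ∈ A) (h : a ∉ A.nonunits) :
    a ≠ 0 ∧ a⁻¹ ∈ A := by
  rw [ValuationSubring.mem_nonunits_iff, not_lt] at h
  have h1 : A.valuation a = 1 := le_antisymm ((A.valuation_le_one_iff a).mpr ha) h
  refine ⟨fun h0 => ?_, ?_⟩
  · rw [h0, map_zero] at h1
    exact zero_ne_one h1
  · rw [← A.valuation_le_one_iff, map_inv₀, h1, inv_one]

/-- **L0** -/
theorem through_of_centered {B : Subring F} {𝔫 : Ideal B} {w : Place K F}
    (h : Centered A B 𝔫 w) : Through B 𝔫 w := by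
  obtain ⟨hrat, hreg, hiff⟩ := h
  intro b
  refine ⟨(hreg b).1, fun hb => ?_⟩
  have h1 : val w (b : F) ≠ 0 := by
    intro h0
    apply hb
    rw [hiff, h0]
    exact Center_zero_mem_nonunits
  rw [Ne, val_eq_zero_iff_rat hrat (hreg b).1, not_or, not_lt] at h1
  exact le_antisymm h1.2 (hreg b).1

/-- **L1** (the centre of a rational place). -/
theorem exists_center (h₀ : IsUnif A ϖ₀) (z : F) (w : Place K F) (hw : IsRat w)
    (h : InFin A z w) :
    ∃ 𝔫 : Ideal (chart A.toSubring z), 𝔫.IsMaximal ∧ Centered A (chart A.toSubring z) 𝔫 w := by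
  have hval := val_mem_of_mem_chart A z w hw h
  let ev : chart A.toSubring z →+* A :=
    { toFun := fun b => ⟨val w (b : F), (hval b.1 b.2).2⟩
      map_one' := Subtype.ext (val_one (v := w))
      map_zero' := Subtype.ext (val_zero (v := w))
      map_mul' := fun a b => Subtype.ext (val_mul_rat hw (hval a.1 a.2).1 (hval b.1 b.2).1)
      map_add' := fun a b => Subtype.ext (val_add_rat hw (hval a.1 a.2).1 (hval b.1 b.2).1) }
  have hsurj : Function.Surjective ((IsLocalRing.residue A).comp ev) := by
    intro y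
    obtain ⟨a, rfl⟩ := IsLocalRing.residue_surjective y
    refine ⟨⟨algebraMap K F a.1, Center_const_mem_chart z a.2⟩, ?_⟩
    show IsLocalRing.residue A (ev _) = _
    congr 1
    exact Subtype.ext (val_algebraMap (v := w) a.1)
  refine ⟨RingHom.ker ((IsLocalRing.residue A).comp ev),
    RingHom.ker_isMaximal_of_surjective _ hsurj, hw, fun b => hval b.1 b.2, fun b => ?_⟩
  rw [RingHom.mem_ker, RingHom.comp_apply, IsLocalRing.residue_eq_zero_iff,
    ValuationSubring.valuation_lt_one_iff, ValuationSubring.mem_nonunits_iff]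
  rfl

/-- **L1'** (a rational place through `𝔫` is centred at `𝔫`). -/
theorem centered_of_through (h₀ : IsUnif A ϖ₀) (z : F)
    (𝔫 : Ideal (chart A.toSubring z)) (h𝔫 : 𝔫.IsMaximal)
    (hϖ : ∀ b : chart A.toSubring z, (b : F) = algebraMap K F ϖ₀ → b ∈ 𝔫)
    (w : Place K F) (hw : IsRat w) (h : Through (chart A.toSubring z) 𝔫 w) :
    InFin A z w ∧ Centered A (chart A.toSubring z) 𝔫 w := by
  have h1𝔫 : (1 : chart A.toSubring z) ∉ 𝔫 := fun h1 => h𝔫.ne_top ((Ideal.eq_top_iff_one _).mpr h1)
  -- constants which are nonunits lie in `𝔫`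
  have hnon : ∀ (a : K) (ha : a ∈ A), a ∈ A.nonunits →
      (⟨algebraMap K F a, Center_const_mem_chart z ha⟩ : chart A.toSubring z) ∈ 𝔫 := by
    intro a ha hna
    have h1 := Center_div_mem_of_nonunit h₀ hna
    have h2 : (⟨algebraMap K F a, Center_const_mem_chart z ha⟩ : chart A.toSubring z) =
        ⟨algebraMap K F (a / ϖ₀), Center_const_mem_chart z h1⟩ *
          ⟨algebraMap K F ϖ₀, Center_const_mem_chart z h₀.mem⟩ := by
      apply Subtype.ext
      show algebraMap K F a = algebraMap K F (a / ϖ₀) * algebraMap K F ϖ₀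
      rw [← map_mul, div_mul_cancel₀ _ h₀.ne_zero]
    rw [h2]
    exact 𝔫.mul_mem_left _ (hϖ _ rfl)
  -- an element vanishing at `w` lies in `𝔫`
  have hvan : ∀ b : chart A.toSubring z, ((b : F) = 0 ∨ 0 < w.ord (b : F)) → b ∈ 𝔫 := by
    intro b hb
    by_contra hbn
    rcases hb with hb | hb
    · apply hbn
      have : b = 0 := Subtype.ext hb
      rw [this]
      exact 𝔫.zero_mem
    · rw [(h b).2 hbn] at hb
      exact lt_irrefl _ hb
  have hz : 0 ≤ w.ord z := (h ⟨z, Center_coord_mem_chart z⟩).1
  have hfin : InFin A z w := by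
    refine ⟨hz, ?_⟩
    by_contra hc
    set c := val w z with hcdef
    have hc0 : c ≠ 0 := fun h0 => hc (h0 ▸ A.zero_mem)
    have hci : c⁻¹ ∈ A := (A.mem_or_inv_mem c).resolve_left hc
    have hcn : c⁻¹ ∈ A.nonunits := by
      by_contra hcn
      have := (Center_inv_mem_of_not_nonunit hci hcn).2
      rw [inv_inv] at this
      exact hc this
    let cz : chart A.toSubring z :=
      ⟨algebraMap K F c⁻¹, Center_const_mem_chart z hci⟩ * ⟨z, Center_coord_mem_chart z⟩
    have hcz : cz ∈ 𝔫 := 𝔫.mul_mem_right _ (hnon _ hci hcn)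
    have hb : (1 - cz : chart A.toSubring z) ∈ 𝔫 := by
      apply hvan
      have h1 : 0 ≤ w.ord (algebraMap K F c⁻¹ * z) := (h cz).1
      have h2 : val w ((1 : F) - algebraMap K F c⁻¹ * z) = 0 := by
        rw [val_sub_rat hw (by simp) h1, val_mul_rat hw (ord_algebraMap_nonneg _) hz,
          val_one, val_algebraMap, ← hcdef, inv_mul_cancel₀ hc0, sub_self]
      exact (val_eq_zero_iff_rat hw (h (1 - cz)).1).mp h2
    apply h1𝔫
    have : (1 : chart A.toSubring z) = (1 - cz) + cz := by ring
    rw [this]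
    exact 𝔫.add_mem hb hcz
  have hval := val_mem_of_mem_chart A z w hw hfin
  refine ⟨hfin, hw, fun b => hval b.1 b.2, fun b => ?_⟩
  have ha : val w (b : F) ∈ A := (hval b.1 b.2).2
  set a' : chart A.toSubring z := ⟨algebraMap K F (val w (b : F)), Center_const_mem_chart z ha⟩
    with ha'
  have hsub : b - a' ∈ 𝔫 := by
    apply hvan
    rcases val_spec_rat hw (hval b.1 b.2).1 with h1 | h1
    · left
      show (b : F) - algebraMap K F (val w (b : F)) = 0
      rw [sub_eq_zero]
      exact h1
    · right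
      exact h1
  constructor
  · intro hb
    by_contra hna
    obtain ⟨h0, hinv⟩ := Center_inv_mem_of_not_nonunit ha hna
    have h1 : a' ∈ 𝔫 := by
      have : a' = b - (b - a') := by ring
      rw [this]
      exact 𝔫.sub_mem hb hsub
    apply h1𝔫
    have h2 : (1 : chart A.toSubring z) =
        ⟨algebraMap K F (val w (b : F))⁻¹, Center_const_mem_chart z hinv⟩ * a' := by
      apply Subtype.ext
      show (1 : F) = algebraMap K F (val w (b : F))⁻¹ * algebraMap K F (val w (b : F))
      rw [← map_mul, inv_mul_cancel₀ h0, map_one]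
    rw [h2]
    exact 𝔫.mul_mem_left _ h1
  · intro hna
    have : b = (b - a') + a' := by ring
    rw [this]
    exact 𝔫.add_mem hsub (hnon _ ha hna)

/-- **L3** (same centre = same reduction). -/
theorem resV_val_eq_of_centered (z : F) (𝔫 : Ideal (chart A.toSubring z)) {w w' : Place K F}
    (h : Centered A (chart A.toSubring z) 𝔫 w) (h' : Centered A (chart A.toSubring z) 𝔫 w')
    (b : chart A.toSubring z) : resV A (val w (b : F)) = resV A (val w' (b : F)) := by
  obtain ⟨hrat, hreg, hiff⟩ := h
  obtain ⟨hrat', hreg', hiff'⟩ := h'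
  have ha : val w (b : F) ∈ A := (hreg b).2
  let a' : chart A.toSubring z := ⟨algebraMap K F (val w (b : F)), Center_const_mem_chart z ha⟩
  have h1 : b - a' ∈ 𝔫 := by
    rw [hiff]
    have : val w ((b : F) - algebraMap K F (val w (b : F))) = 0 := by
      rw [val_sub_rat hrat (hreg b).1 (ord_algebraMap_nonneg _), val_algebraMap, sub_self]
    show val w ((b : F) - algebraMap K F (val w (b : F))) ∈ A.nonunits
    rw [this]
    exact Center_zero_mem_nonunits
  rw [hiff'] at h1
  have h2 : val w' ((b : F) - algebraMap K F (val w (b : F))) ∈ A.nonunits := h1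
  rw [val_sub_rat hrat' (hreg' b).1 (ord_algebraMap_nonneg _), val_algebraMap] at h2
  rw [resV_eq_iff A ha (hreg' b).2]
  have := Center_neg_mem_nonunits h2
  rwa [neg_sub] at this

end FL

end Fermat.Agent.S37.II

end
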