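import Fermat.Agent.S37.II.Defs
import Fermat.Agent.S18.Chart.Const
import Fermat.Agent.S18.Chart.Unif

/-!
# S37 route II, nodes G1 and G2 (task 1897, proofs helper196)

* `exists_mem_chart_of_local` (G1): an element of `Ow` which is, modulo `ϖ`, a fraction with
  denominator outside `𝔫` for every maximal ideal `𝔫 ∋ ϖ` of the chart `B`, is congruent modulo
  `ϖ` to an element of `B`.
* `exists_monic_of_mem_both` (G2): a function on the special fibre which is regular on both charts
  is algebraic over the residue field.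
-/

set_option autoImplicit false

noncomputable section

namespace Fermat.Agent.S37.II

open AlgebraicCurve Fermat.Agent.S24 Fermat.Agent.S18 IntermediateField Polynomial

section FL

variable {K F : Type*} [Field K] [Field F] [Algebra K F]

variable {A : ValuationSubring K} {ϖ₀ : K} {Ow : ValuationSubring F}

/-- **G1** (local integrality implies integrality modulo `ϖ`). -/
theorem exists_mem_chart_of_local {ϖ : F} (hw : IsUnif Ow ϖ) {B : Subring F}
    (hB : IsChart Ow ϖ B) (u : F) (hu : u ∈ Ow)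
    (h : ∀ 𝔫 : Ideal B, 𝔫.IsMaximal → (⟨_, hB.unif_mem⟩ : B) ∈ 𝔫 →
      ∃ a b : B, b ∉ 𝔫 ∧ (u * (b : F) - (a : F)) / ϖ ∈ Ow) :
    ∃ b : B, (u - (b : F)) / ϖ ∈ Ow := by
  have hϖ := hw.ne_zero
  let I : Ideal B :=
    { carrier := {b : B | ∃ a : B, (u * (b : F) - (a : F)) / ϖ ∈ Ow}
      add_mem' := by
        rintro b b' ⟨a, ha⟩ ⟨a', ha'⟩
        refine ⟨a + a', ?_⟩
        have e : (u * ((b + b' : B) : F) - ((a + a' : B) : F)) / ϖ
            = (u * (b : F) - (a : F)) / ϖ + (u * (b' : F) - (a' : F)) / ϖ := by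
          push_cast
          ring
        rw [e]
        exact Ow.add_mem _ _ ha ha'
      zero_mem' := ⟨0, by simp [Ow.zero_mem]⟩
      smul_mem' := by
        rintro c b ⟨a, ha⟩
        refine ⟨c * a, ?_⟩
        have e : (u * ((c • b : B) : F) - ((c * a : B) : F)) / ϖ
            = (c : F) * ((u * (b : F) - (a : F)) / ϖ) := by
          rw [smul_eq_mul]
          push_cast
          ring
        rw [e]
        exact Ow.mul_mem _ _ (hB.le _ c.2) ha }
  have hI : I = ⊤ := by
    by_contra hne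
    obtain ⟨𝔫, h𝔫, hle⟩ := Ideal.exists_le_maximal I hne
    have hϖI : (⟨_, hB.unif_mem⟩ : B) ∈ I := by
      refine ⟨0, ?_⟩
      have e : (u * ((⟨_, hB.unif_mem⟩ : B) : F) - ((0 : B) : F)) / ϖ = u := by
        push_cast
        field_simp
        ring
      rw [e]
      exact hu
    obtain ⟨a, b, hb, hab⟩ := h 𝔫 h𝔫 (hle hϖI)
    exact hb (hle ⟨a, hab⟩)
  have h1 : (1 : B) ∈ I := by
    rw [hI]
    trivial
  obtain ⟨a, ha⟩ := h1
  exact ⟨a, by simpa using ha⟩

end FL

namespace GlobalAux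

/-- the kernel of the residue map of a discrete valuation ring, in terms of the uniformiser -/
theorem residue_eq_zero_iff {F : Type*} [Field F] {Ow : ValuationSubring F} {ϖ : F}
    (hw : IsUnif Ow ϖ) (y : Ow) : IsLocalRing.residue Ow y = 0 ↔ (y : F) / ϖ ∈ Ow := by
  rw [IsLocalRing.residue_eq_zero_iff, IsLocalRing.mem_maximalIdeal, mem_nonunits_iff]
  constructor
  · intro hy
    by_cases hy0 : (y : F) = 0
    · rw [hy0, zero_div]
      exact Ow.zero_mem
    apply hw.div_mem y.2
    intro hinv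
    apply hy
    refine IsUnit.of_mul_eq_one ⟨_, hinv⟩ (Subtype.ext ?_)
    change (y : F) * (y : F)⁻¹ = 1
    exact mul_inv_cancel₀ hy0
  · intro hy hu
    obtain ⟨v, hv⟩ := hu.exists_right_inv
    apply hw.inv_notMem
    have h1 : (y : F) * (v : F) = 1 := congrArg Subtype.val hv
    have h2 : ϖ⁻¹ = (y : F) / ϖ * (v : F) := by
      rw [div_mul_eq_mul_div, h1, one_div]
    rw [h2]
    exact Ow.mul_mem _ _ hy v.2

section Abstract

variable {K F : Type*} [Field K] [Field F] [Algebra K F]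
variable {A : ValuationSubring K} {Ow : ValuationSubring F}

/-- the inclusion of the constants `A → Ow` -/
def constHom (hc : ∀ a ∈ A, algebraMap K F a ∈ Ow) : A →+* Ow :=
  ((algebraMap K F).comp A.subtype).codRestrict Ow (fun a => hc a a.2)

theorem coe_eval₂_constHom (hc : ∀ a ∈ A, algebraMap K F a ∈ Ow) (q : A[X]) (z : Ow) :
    ((eval₂ (constHom hc) z q : Ow) : F) = aeval (z : F) (q.map A.subtype) := by
  have h1 : ((eval₂ (constHom hc) z q : Ow) : F) = Ow.subtype (eval₂ (constHom hc) z q) := rfl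
  rw [h1, hom_eval₂, aeval_def, eval₂_map]
  rfl

theorem exists_map_subtype_eq (p : K[X]) (hp : ∀ i, p.coeff i ∈ A) :
    ∃ q : A[X], q.map A.subtype = p := by
  have h : p ∈ Polynomial.lifts A.subtype := by
    rw [Polynomial.lifts_iff_coeff_lifts]
    intro i
    exact ⟨⟨_, hp i⟩, rfl⟩
  obtain ⟨q, rfl⟩ := h
  exact ⟨q, rfl⟩

variable {k κ : Type*} [Field k] [Field κ] [Algebra k κ]
variable (rA : A →+* k) (rO : Ow →+* κ)

theorem rO_eval₂ (hc : ∀ a ∈ A, algebraMap K F a ∈ Ow)
    (hcomp : rO.comp (constHom hc) = (algebraMap k κ).comp rA) (q : A[X]) (z : Ow) :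
    rO (eval₂ (constHom hc) z q) = aeval (rO z) (q.map rA) := by
  rw [hom_eval₂, hcomp, aeval_def, eval₂_map]

theorem polyRing_le (hc : ∀ a ∈ A, algebraMap K F a ∈ Ow) (z : Ow) (r : F)
    (hr : r ∈ polyRing A.toSubring (z : F)) : r ∈ Ow := by
  rw [mem_polyRing_iff] at hr
  obtain ⟨p, hp, rfl⟩ := hr
  obtain ⟨q, rfl⟩ := exists_map_subtype_eq p hp
  rw [← coe_eval₂_constHom hc]
  exact (eval₂ (constHom hc) z q).2

theorem red_mem_polyRing (hc : ∀ a ∈ A, algebraMap K F a ∈ Ow)
    (hcomp : rO.comp (constHom hc) = (algebraMap k κ).comp rA) (z y : Ow)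
    (hr : (y : F) ∈ polyRing A.toSubring (z : F)) :
    rO y ∈ polyRing (⊤ : Subring k) (rO z) := by
  rw [mem_polyRing_iff] at hr
  obtain ⟨p, hp, hpy⟩ := hr
  obtain ⟨q, rfl⟩ := exists_map_subtype_eq p hp
  rw [← coe_eval₂_constHom hc] at hpy
  have hy : y = eval₂ (constHom hc) z q := Subtype.ext hpy.symm
  rw [hy, rO_eval₂ rA rO hc hcomp, mem_polyRing_iff]
  exact ⟨q.map rA, fun _ => Subring.mem_top _, rfl⟩

theorem red_mem_chart (hc : ∀ a ∈ A, algebraMap K F a ∈ Ow)
    (hcomp : rO.comp (constHom hc) = (algebraMap k κ).comp rA) (z b : Ow)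
    (hb : (b : F) ∈ chart A.toSubring (z : F)) :
    rO b ∈ chart (⊤ : Subring k) (rO z) := by
  rw [mem_chart_iff_isIntegral] at hb ⊢
  obtain ⟨P, hP, hPb⟩ := hb
  let ι : polyRing A.toSubring (z : F) →+* Ow :=
    (polyRing A.toSubring (z : F)).subtype.codRestrict Ow (fun r => polyRing_le hc z r r.2)
  have h1 : eval₂ ι b P = 0 := by
    apply Subtype.ext
    have e : ((eval₂ ι b P : Ow) : F) = Ow.subtype (eval₂ ι b P) := rfl
    rw [e, hom_eval₂]
    exact hPb
  have h2 : eval₂ (rO.comp ι) (rO b) P = 0 := by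
    rw [← hom_eval₂, h1, map_zero]
  let j : polyRing A.toSubring (z : F) →+* polyRing (⊤ : Subring k) (rO z) :=
    (rO.comp ι).codRestrict _ (fun r => red_mem_polyRing rA rO hc hcomp z (ι r) r.2)
  refine ⟨P.map j, hP.map j, ?_⟩
  rw [eval₂_map]
  exact h2

theorem transcendental_red (hc : ∀ a ∈ A, algebraMap K F a ∈ Ow)
    (hcomp : rO.comp (constHom hc) = (algebraMap k κ).comp rA)
    (hsurj : Function.Surjective rA) {ϖ₀ : K} {ϖ : F}
    (hkerO : ∀ y : Ow, rO y = 0 → (y : F) / ϖ ∈ Ow)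
    (hkerA : ∀ a : A, (a : K) / ϖ₀ ∈ A → rA a = 0) (z : Ow)
    (htr : ∀ p : K[X], (∀ i, p.coeff i ∈ A) → aeval (z : F) p / ϖ ∈ Ow →
      ∀ i, p.coeff i / ϖ₀ ∈ A) :
    Transcendental k (rO z) := by
  rw [transcendental_iff]
  intro pb hpb
  obtain ⟨q, rfl⟩ := Polynomial.map_surjective rA hsurj pb
  have h1 : rO (eval₂ (constHom hc) z q) = 0 := by
    rw [rO_eval₂ rA rO hc hcomp, hpb]
  have h2 := hkerO _ h1
  rw [coe_eval₂_constHom hc] at h2
  have h3 := htr (q.map A.subtype) (fun i => by simp) h2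
  ext i
  rw [coeff_map, coeff_zero]
  exact hkerA _ (by simpa using h3 i)

end Abstract

end GlobalAux

open GlobalAux

section FL

variable {K F : Type*} [Field K] [Field F] [Algebra K F]

variable {A : ValuationSubring K} {ϖ₀ : K} {Ow : ValuationSubring F}

/-- **G2** (a function on the special fibre regular on both charts is constant). -/
theorem exists_monic_of_mem_both {x : F} (hM : GoodModel A x ϖ₀ Ow)
    (b₁ : chart A.toSubring x) (b₂ : chart A.toSubring x⁻¹)
    (h : ((b₁ : F) - (b₂ : F)) / algebraMap K F ϖ₀ ∈ Ow) :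
    ∃ p : K[X], p.Monic ∧ (∀ i, p.coeff i ∈ A) ∧
      aeval (b₁ : F) p / algebraMap K F ϖ₀ ∈ Ow := by
  have hc := hM.vert.const_mem
  have h₀ := hM.vert.unif₀
  have hw := hM.vert.unif
  have hker : ∀ a ∈ IsLocalRing.maximalIdeal A,
      ((IsLocalRing.residue Ow).comp (constHom hc)) a = 0 := by
    intro a ha
    rw [← IsLocalRing.residue_eq_zero_iff, residue_eq_zero_iff h₀] at ha
    rw [RingHom.comp_apply, residue_eq_zero_iff hw]
    have h1 := hc _ ha
    rwa [map_div₀] at h1
  let ψ : IsLocalRing.ResidueField A →+* IsLocalRing.ResidueField Ow :=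
    Ideal.Quotient.lift _ _ hker
  let _ : Algebra (IsLocalRing.ResidueField A) (IsLocalRing.ResidueField Ow) := ψ.toAlgebra
  have hcomp : (IsLocalRing.residue Ow).comp (constHom hc) =
      (algebraMap (IsLocalRing.ResidueField A) (IsLocalRing.ResidueField Ow)).comp
        (IsLocalRing.residue A) := by
    ext a
    rfl
  -- the elements of `Ow`
  let X₁ : Ow := ⟨x, hM.coord.mem⟩
  let X₂ : Ow := ⟨x⁻¹, hM.coord'.mem⟩
  let B₁ : Ow := ⟨b₁, hM.chart₁.le _ b₁.2⟩
  let B₂ : Ow := ⟨b₂, hM.chart₂.le _ b₂.2⟩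
  have hx0 : x ≠ 0 := hM.cover.x_ne
  have hX : IsLocalRing.residue Ow X₂ = (IsLocalRing.residue Ow X₁)⁻¹ := by
    apply eq_inv_of_mul_eq_one_left
    rw [← map_mul]
    have e : X₂ * X₁ = 1 := Subtype.ext (inv_mul_cancel₀ hx0)
    rw [e, map_one]
  have hBB : IsLocalRing.residue Ow B₁ = IsLocalRing.residue Ow B₂ := by
    rw [← sub_eq_zero, ← map_sub, residue_eq_zero_iff hw]
    exact h
  have htr : Transcendental (IsLocalRing.ResidueField A) (IsLocalRing.residue Ow X₁) :=
    transcendental_red (IsLocalRing.residue A) (IsLocalRing.residue Ow) hc hcomp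
      IsLocalRing.residue_surjective
      (fun y hy => (residue_eq_zero_iff hw y).mp hy)
      (fun a ha => (residue_eq_zero_iff h₀ a).mpr ha) X₁ hM.coord.transc
  have hm₁ := red_mem_chart (IsLocalRing.residue A) (IsLocalRing.residue Ow) hc hcomp X₁ B₁ b₁.2
  have hm₂ := red_mem_chart (IsLocalRing.residue A) (IsLocalRing.residue Ow) hc hcomp X₂ B₂ b₂.2
  rw [← hBB, hX] at hm₂
  have halg := const_abs htr hm₁ hm₂
  obtain ⟨pb, hpb, hpb0⟩ := halg.isIntegral
  obtain ⟨q, hq, -, hqm⟩ := Polynomial.lifts_and_degree_eq_and_monic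
    (f := IsLocalRing.residue A) (p := pb)
    (by
      rw [Polynomial.lifts_iff_coeff_lifts]
      intro i
      exact IsLocalRing.residue_surjective _) hpb
  refine ⟨q.map A.subtype, hqm.map _, fun i => by simp, ?_⟩
  have e := coe_eval₂_constHom hc q B₁
  change _ = aeval (b₁ : F) (q.map A.subtype) at e
  rw [← e, ← residue_eq_zero_iff hw,
    rO_eval₂ (IsLocalRing.residue A) (IsLocalRing.residue Ow) hc hcomp, hq]
  exact hpb0

end FL

end Fermat.Agent.S37.II

end
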