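import Fermat.Agent.S37.II.Defs
import Fermat.Agent.GAL.E.Main

/-!
# S37 route II, block ONE: functions congruent to a constant (task S37-II-ONE, helper18)

`IsOne A N e`: `e` is a nonzero constant times `P / Q`, with `P`, `Q` of `A`-integral
`q`-expansion and the same nonzero reduction.  The last two statements are the cores of
`GAL.E.rho_eq_one_of_inertia` and `GAL.E.HeckeOp.eichler_shimura`.
-/

set_option autoImplicit false

noncomputable section

namespace Fermat.Agent.S37.II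

open AlgebraicCurve ModularCurve Fermat.Agent.S24 Fermat.Agent.S18 IntermediateField
open Fermat.Agent.GAL.E Fermat.Agent.S37.II

section ONE

variable {A : ValuationSubring Kbar} {N : ℕ}

private theorem incl_ne_zero_of_rho {P : LaurentSeries A} (h : rho A P ≠ 0) :
    coeffMap A.subtype P ≠ 0 := by
  intro h0
  apply h
  have hP : P = 0 := by
    have hinj : Function.Injective (coeffMap A.subtype) := by
      intro a b hab
      ext n
      have := congrArg (fun s : LaurentSeries Kbar => s.coeff n) hab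
      exact this
    exact hinj (by rw [h0, map_zero])
  rw [hP]
  exact map_zero (coeffMap (IsLocalRing.residue A))

theorem isOne_ne_zero {e : FN N} (h : IsOne A N e) : e ≠ 0 := by
  obtain ⟨d, P, Q, hP, hQ, hd, hPQ, hQ0, rfl⟩ := h
  have hP0 : rho A P ≠ 0 := hPQ ▸ hQ0
  refine mul_ne_zero ((map_ne_zero _).2 hd) (div_ne_zero ?_ ?_)
  · intro h
    exact incl_ne_zero_of_rho hP0 (congrArg Subtype.val h)
  · intro h
    exact incl_ne_zero_of_rho hQ0 (congrArg Subtype.val h)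

theorem isOne_const_mul {e : FN N} (h : IsOne A N e) {c : Kbar} (hc : c ≠ 0) :
    IsOne A N (algebraMap Kbar (FN N) c * e) := by
  obtain ⟨d, P, Q, hP, hQ, hd, hPQ, hQ0, rfl⟩ := h
  exact ⟨c * d, P, Q, hP, hQ, mul_ne_zero hc hd, hPQ, hQ0, by rw [map_mul, mul_assoc]⟩

theorem isOne_alpha [NeZero N] (r : ℕ) [NeZero r] {e : FN N} (h : IsOne A N e) :
    IsOne A (N * r) (heckeAlphaBar Kbar N r e) := by
  obtain ⟨d, P, Q, hP, hQ, hd, hPQ, hQ0, rfl⟩ := h
  have hP' : coeffMap A.subtype P ∈ modularFunctionFieldBar (N * r) :=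
    (heckeAlphaBar Kbar N r ⟨coeffMap A.subtype P, hP⟩).2
  have hQ' : coeffMap A.subtype Q ∈ modularFunctionFieldBar (N * r) :=
    (heckeAlphaBar Kbar N r ⟨coeffMap A.subtype Q, hQ⟩).2
  refine ⟨d, P, Q, hP', hQ', hd, hPQ, hQ0, ?_⟩
  rw [map_mul, map_div₀, AlgHom.commutes]
  rfl

theorem isOne_inertia (ℓ : ℕ) (hℓ : ℓ.Prime) (hA : A.LiesOverPrime ℓ) (σ : GQ)
    (hσ : σ ∈ A.inertiaSubgroupIn ℚ) (u : FN N) (hu : u ≠ 0) :
    IsOne A N (galF N σ u * u⁻¹) := by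
  obtain ⟨c, x, y, hx, hy, hc, hx0, hy0, huxy⟩ := exists_scaling A ℓ hℓ hA N u hu
  set X : FN N := ⟨incl A x, hx⟩ with hX
  set Y : FN N := ⟨incl A y, hy⟩ with hY
  have hXne : X ≠ 0 := by
    rintro h
    rw [h, zero_div, mul_zero] at huxy
    exact hu huxy
  have hYne : Y ≠ 0 := by
    rintro h
    rw [h, div_zero, mul_zero] at huxy
    exact hu huxy
  obtain ⟨x', hx'1, hx'2⟩ := exists_gal_of_inertia A σ hσ x
  obtain ⟨y', hy'1, hy'2⟩ := exists_gal_of_inertia A σ hσ y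
  have hσX : ((galF N σ X : FN N) : LaurentSeries Kbar) = incl A x' := by rw [coe_galF, hx'1]
  have hσY : ((galF N σ Y : FN N) : LaurentSeries Kbar) = incl A y' := by rw [coe_galF, hy'1]
  have hP : incl A (x' * y) ∈ modularFunctionFieldBar N := by
    rw [map_mul, ← hσX]
    exact (galF N σ X * Y).2
  have hQ : incl A (x * y') ∈ modularFunctionFieldBar N := by
    rw [map_mul, ← hσY]
    exact (X * galF N σ Y).2
  have hPe : (⟨incl A (x' * y), hP⟩ : FN N) = galF N σ X * Y :=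
    Subtype.ext (by
      show incl A (x' * y) = ((galF N σ X : FN N) : LaurentSeries Kbar) * (Y : LaurentSeries Kbar)
      rw [map_mul, ← hσX])
  have hQe : (⟨incl A (x * y'), hQ⟩ : FN N) = X * galF N σ Y :=
    Subtype.ext (by
      show incl A (x * y') = (X : LaurentSeries Kbar) * ((galF N σ Y : FN N) : LaurentSeries Kbar)
      rw [map_mul, ← hσY])
  have hσc : σ c ≠ 0 := (map_ne_zero _).2 hc
  refine ⟨σ c / c, x' * y, x * y', hP, hQ, div_ne_zero hσc hc, ?_, ?_, ?_⟩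
  · show GAL.E.red A (x' * y) = GAL.E.red A (x * y')
    rw [map_mul, map_mul, hx'2, hy'2]
  · show GAL.E.red A (x * y') ≠ 0
    rw [map_mul, hy'2]
    exact mul_ne_zero hx0 hy0
  · rw [hPe, hQe]
    have hσXne : galF N σ X ≠ 0 := (map_ne_zero_iff _ (galF N σ).injective).2 hXne
    have hσYne : galF N σ Y ≠ 0 := (map_ne_zero_iff _ (galF N σ).injective).2 hYne
    have hc' : algebraMap Kbar (FN N) c ≠ 0 := (map_ne_zero _).2 hc
    have h1 : galF N σ u = algebraMap Kbar (FN N) (σ c) * (galF N σ X / galF N σ Y) := by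
      rw [huxy, map_mul, map_div₀, galF_algebraMap]
    rw [h1, map_div₀]
    conv_lhs => rw [huxy]
    field_simp

theorem isOne_frobenius {ℓ : ℕ} [NeZero ℓ] (H : HeckeOp N ℓ) (hℓ : ℓ.Prime)
    (hA : A.LiesOverPrime ℓ) (φ : GQ) (hφ : A.IsFrobeniusAt φ ℓ) (u : FN N) (hu : u ≠ 0) :
    IsOne A N (galF N φ (galF N φ u) * (H.T (galF N φ u))⁻¹ * u ^ ℓ) := by
  have : Fact ℓ.Prime := ⟨hℓ⟩
  have : CharP (IsLocalRing.ResidueField A) ℓ := charP_residueField A ℓ hℓ hA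
  obtain ⟨c, x, y, hx, hy, hc, hx0, hy0, huxy⟩ := exists_scaling A ℓ hℓ hA N u hu
  set X : FN N := ⟨incl A x, hx⟩ with hX
  set Y : FN N := ⟨incl A y, hy⟩ with hY
  have hXne : X ≠ 0 := by
    rintro h
    rw [h, zero_div, mul_zero] at huxy
    exact hu huxy
  have hYne : Y ≠ 0 := by
    rintro h
    rw [h, div_zero, mul_zero] at huxy
    exact hu huxy
  obtain ⟨x1, hx1a, hx1b⟩ := exists_gal_of_frobenius A ℓ φ hφ x
  obtain ⟨x2, hx2a, hx2b⟩ := exists_gal_of_frobenius A ℓ φ hφ x1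
  obtain ⟨y1, hy1a, hy1b⟩ := exists_gal_of_frobenius A ℓ φ hφ y
  obtain ⟨y2, hy2a, hy2b⟩ := exists_gal_of_frobenius A ℓ φ hφ y1
  set X1 : FN N := galF N φ X with hX1
  set Y1 : FN N := galF N φ Y with hY1
  set X2 : FN N := galF N φ X1 with hX2
  set Y2 : FN N := galF N φ Y1 with hY2
  have cX1 : (X1 : LaurentSeries Kbar) = incl A x1 := by rw [hX1, coe_galF, hx1a]
  have cY1 : (Y1 : LaurentSeries Kbar) = incl A y1 := by rw [hY1, coe_galF, hy1a]
  have cX2 : (X2 : LaurentSeries Kbar) = incl A x2 := by rw [hX2, coe_galF, hx2a, cX1]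
  have cY2 : (Y2 : LaurentSeries Kbar) = incl A y2 := by rw [hY2, coe_galF, hy2a, cY1]
  have mX1 : incl A x1 ∈ modularFunctionFieldBar N := cX1 ▸ X1.2
  have mY1 : incl A y1 ∈ modularFunctionFieldBar N := cY1 ▸ Y1.2
  have eX1 : (⟨incl A x1, mX1⟩ : FN N) = X1 := Subtype.ext cX1.symm
  have eY1 : (⟨incl A y1, mY1⟩ : FN N) = Y1 := Subtype.ext cY1.symm
  obtain ⟨tx, htx1, htx2⟩ := H.exists_T_red A hA x1 mX1
  obtain ⟨ty, hty1, hty2⟩ := H.exists_T_red A hA y1 mY1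
  rw [eX1] at htx1
  rw [eY1] at hty1
  have cP : incl A (x2 * x ^ ℓ * ty) = ((X2 * X ^ ℓ * H.T Y1 : FN N) : LaurentSeries Kbar) := by
    show _ = (X2 : LaurentSeries Kbar) * (X : LaurentSeries Kbar) ^ ℓ *
      ((H.T Y1 : FN N) : LaurentSeries Kbar)
    rw [map_mul, map_mul, map_pow, hty1, cX2]
  have cQ : incl A (y2 * y ^ ℓ * tx) = ((Y2 * Y ^ ℓ * H.T X1 : FN N) : LaurentSeries Kbar) := by
    show _ = (Y2 : LaurentSeries Kbar) * (Y : LaurentSeries Kbar) ^ ℓ *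
      ((H.T X1 : FN N) : LaurentSeries Kbar)
    rw [map_mul, map_mul, map_pow, htx1, cY2]
  have hP : incl A (x2 * x ^ ℓ * ty) ∈ modularFunctionFieldBar N := cP ▸ Subtype.coe_prop _
  have hQ : incl A (y2 * y ^ ℓ * tx) ∈ modularFunctionFieldBar N := cQ ▸ Subtype.coe_prop _
  have hPe : (⟨incl A (x2 * x ^ ℓ * ty), hP⟩ : FN N) = X2 * X ^ ℓ * H.T Y1 := Subtype.ext cP
  have hQe : (⟨incl A (y2 * y ^ ℓ * tx), hQ⟩ : FN N) = Y2 * Y ^ ℓ * H.T X1 := Subtype.ext cQ
  have hσc : φ c ≠ 0 := (map_ne_zero _).2 hc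
  have hσσc : φ (φ c) ≠ 0 := (map_ne_zero _).2 hσc
  have hF : ∀ z : LaurentSeries (IsLocalRing.ResidueField A), z ≠ 0 →
      coeffMap (frobenius (IsLocalRing.ResidueField A) ℓ) z ≠ 0 := by
    intro z hz h
    have h1 := pow_char_eq_qExpand ℓ z
    rw [h, map_zero] at h1
    exact hz (pow_eq_zero_iff hℓ.ne_zero |>.1 h1)
  refine ⟨φ (φ c) * c ^ ℓ / φ c ^ (ℓ + 1), x2 * x ^ ℓ * ty, y2 * y ^ ℓ * tx, hP, hQ,
    div_ne_zero (mul_ne_zero hσσc (pow_ne_zero _ hc)) (pow_ne_zero _ hσc), ?_, ?_, ?_⟩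
  · show GAL.E.red A (x2 * x ^ ℓ * ty) = GAL.E.red A (y2 * y ^ ℓ * tx)
    rw [map_mul, map_mul, map_mul, map_mul, map_pow, map_pow, hx2b, hy2b, htx2, hty2, hx1b, hy1b,
      pow_char_eq_qExpand ℓ (GAL.E.red A x), pow_char_eq_qExpand ℓ (GAL.E.red A y)]
    ring
  · show GAL.E.red A (y2 * y ^ ℓ * tx) ≠ 0
    rw [map_mul, map_mul, map_pow, hy2b, htx2, hx1b, hy1b, ← pow_char_eq_qExpand ℓ (GAL.E.red A x)]
    exact mul_ne_zero (mul_ne_zero (hF _ (hF _ hy0)) (pow_ne_zero _ hy0))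
      (mul_ne_zero (pow_ne_zero _ hx0) (hF _ (hF _ hx0)))
  · rw [hPe, hQe]
    have hX1ne : X1 ≠ 0 := (map_ne_zero_iff _ (galF N φ).injective).2 hXne
    have hY1ne : Y1 ≠ 0 := (map_ne_zero_iff _ (galF N φ).injective).2 hYne
    have hX2ne : X2 ≠ 0 := (map_ne_zero_iff _ (galF N φ).injective).2 hX1ne
    have hY2ne : Y2 ≠ 0 := (map_ne_zero_iff _ (galF N φ).injective).2 hY1ne
    have hTX : H.T X1 ≠ 0 := H.T_ne_zero hX1ne
    have hTY : H.T Y1 ≠ 0 := H.T_ne_zero hY1ne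
    have hc' : algebraMap Kbar (FN N) c ≠ 0 := (map_ne_zero _).2 hc
    have hσc' : algebraMap Kbar (FN N) (φ c) ≠ 0 := (map_ne_zero _).2 hσc
    have h1 : galF N φ u = algebraMap Kbar (FN N) (φ c) * (X1 / Y1) := by
      rw [huxy, map_mul, map_div₀, galF_algebraMap]
    have h2 : galF N φ (galF N φ u) = algebraMap Kbar (FN N) (φ (φ c)) * (X2 / Y2) := by
      rw [h1, map_mul, map_div₀, galF_algebraMap]
    have h3 : H.T (galF N φ u) =
        algebraMap Kbar (FN N) (φ c) ^ (ℓ + 1) * (H.T X1 / H.T Y1) := by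
      rw [h1, map_mul, H.T_div _ hY1ne, H.T_algebraMap, map_pow]
    rw [h2, h3, map_div₀, map_mul, map_pow, map_pow]
    conv_lhs => rw [huxy, mul_pow, div_pow]
    field_simp

end ONE

end Fermat.Agent.S37.II

end
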