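import Fermat.Agent.S37.II.BaseCore
import Fermat.Agent.S37.II.GoodAt
import Fermat.Agent.S37.II.Infinite.One
import Fermat.Agent.S37.II.Infinite.Zero
import Fermat.Agent.GAL.KLInputs.Main

/-!
# S37, route II: `RedData` at a level with a good coordinate

(final imports, no skeleton)
-/

set_option autoImplicit false

noncomputable section

namespace Fermat.Agent.S37.II

open AlgebraicCurve ModularCurve Fermat.Agent.S24 Fermat.Agent.S18

theorem redData_of_base {M ℓ : ℕ} [NeZero M] [Fact ℓ.Prime] (hℓ : ¬ ℓ ∣ M) (B : BaseData M ℓ)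
    (A : ValuationSubring Kbar) (hA : A.LiesOverPrime ℓ) :
    RedData A M ℓ (redDiv A (B.xK Kbar)) :=
  redData_of_isOne_iff (B.xK Kbar) A
    (fun e he D hD => redDiv_eq_zero_of_isOne B (goodAt hℓ B A hA) e he D hD)
    (fun f hf D hD h => isOne_of_redDiv_eq_zero B (goodAt hℓ B A hA) f hf D hD h)
    (fun n hn => Fermat.Agent.GAL.klStatement M ℓ hℓ A hA n hn)

end Fermat.Agent.S37.II

end
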