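import Fermat.Agent.S37.II.LevelCore
import Fermat.Agent.S37.II.IsOne

/-!
# S37, route II: lowering the level
-/

set_option autoImplicit false

noncomputable section

namespace Fermat.Agent.S37.II

open AlgebraicCurve ModularCurve Fermat.Agent.S24
open Fermat.Agent.S37.HeckeInputs

theorem redData_pullback {A : ValuationSubring Kbar} {N ℓ r : ℕ} [NeZero N] [NeZero r]
    (hr : r.Prime) (hrN : ¬ r ∣ N) (hpow : ∃ k, r + 1 = ℓ ^ k) (hℓ : ℓ.Prime) {Y : Type*}
    {ρ : Divisor Kbar (FN (N * r)) →+ (Y →₀ ℤ)} (h : RedData A (N * r) ℓ ρ) :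
    RedData A N ℓ (ρ.comp (Divisor.pullbackAlong (heckeAlphaBar Kbar N r) (alpha_integral N r))) :=
  redData_pullback_of hr hrN hpow hℓ h fun _ he => isOne_alpha r he

end Fermat.Agent.S37.II

end
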