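import Fermat.Agent.S27.Riemann.Bound

/-!
# S37 route II, block RL: the rigidity lemma (helper109)

An additive map on divisors which is bounded on places and vanishes on principal divisors vanishes on
divisors of degree `0` (from the Riemann inequality of S27).
-/

set_option autoImplicit false

noncomputable section

namespace Fermat.Agent.S37.II

open AlgebraicCurve Fermat.Agent.S24 Fermat.Agent.S27

section RL

variable {K F : Type*} [Field K] [Field F] [Algebra K F] [CharZero K] [IsAlgClosed K] [FF.IsFF1 K F]

theorem rigidity_int (hF : ∃ x : F, Transcendental K x) (E : Divisor K F →+ ℤ) (C : ℤ)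
    (hC : ∀ v : Place K F, |E (Finsupp.single v 1)| ≤ C)
    (hP : ∀ D ∈ Divisor.principal (K := K) (F := F), E D = 0)
    (D : Divisor K F) (hD : Divisor.degree D = 0) : E D = 0 := by
  obtain ⟨P0⟩ := Riemann.nonempty_place hF
  have hC0 : 0 ≤ C := (abs_nonneg _).trans (hC P0)
  -- (1) the bound on effective divisors
  have h1 : ∀ R : Divisor K F, 0 ≤ R → |E R| ≤ C * Divisor.degree R := by
    intro R hR
    refine Riemann.eff_induction (P := fun R => |E R| ≤ C * Divisor.degree R) (by simp) ?_ R hR
    intro R v _ ih
    rw [map_add, map_add, Riemann.degree_single_eq, mul_add, mul_one]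
    exact (abs_add_le _ _).trans (add_le_add ih (hC v))
  obtain ⟨γ, hγ⟩ := Riemann.exists_bound hF
  set g : ℤ := max (γ + 1) 0 with hg
  have hg0 : 0 ≤ g := le_max_right _ _
  have hgγ : γ < g := by
    have := le_max_left (γ + 1) 0
    omega
  have key : ∀ n : ℕ, (n : ℤ) * |E D| ≤ 2 * g * C := by
    intro n
    set D' : Divisor K F := n • D + Finsupp.single P0 g with hD'
    have hdeg : Divisor.degree D' = g := by
      rw [hD', map_add, map_nsmul, hD, smul_zero, zero_add, Riemann.degree_single_eq]
    have hfin := Riemann.finite_L hF D'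
    have hpos : 0 < Module.finrank K (riemannRochSpace D') := by
      have := hγ D'
      rw [hdeg] at this
      omega
    obtain ⟨f, hf⟩ : ∃ f : riemannRochSpace D', f ≠ 0 := by
      have : Nontrivial (riemannRochSpace D') := Module.nontrivial_of_finrank_pos hpos
      exact exists_ne 0
    have hf0 : (f : F) ≠ 0 := fun h => hf (Subtype.ext h)
    have hford : ∀ v : Place K F, - D' v ≤ v.ord (f : F) := fun v =>
      ((mem_riemannRochSpace_iff.1 f.2) v).resolve_left hf0
    set R : Divisor K F := Riemann.divOf (f : F) + D' with hR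
    have hR0 : 0 ≤ R := by
      intro v
      rw [hR, Finsupp.add_apply, Riemann.divOf_apply, Finsupp.zero_apply]
      have := hford v
      omega
    have hRdeg : Divisor.degree R = g := by
      rw [hR, map_add, Riemann.degree_divOf, zero_add, hdeg]
    have hprin : E (Riemann.divOf (f : F)) = 0 := hP _ ⟨f, hf0, fun v => rfl⟩
    have hER : E R = n * E D + g * E (Finsupp.single P0 1) := by
      have e : (Finsupp.single P0 g : Divisor K F) = g • Finsupp.single P0 1 := by
        rw [Finsupp.smul_single, smul_eq_mul, mul_one]
      rw [hR, map_add, hprin, zero_add, hD', map_add, map_nsmul, nsmul_eq_mul, e, map_zsmul,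
        smul_eq_mul]
    have h2 := h1 R hR0
    rw [hRdeg, hER] at h2
    have h3 := hC P0
    have h4 : |(n : ℤ) * E D| ≤ |(n : ℤ) * E D + g * E (Finsupp.single P0 1)|
        + |g * E (Finsupp.single P0 1)| := by
      have := abs_sub ((n : ℤ) * E D + g * E (Finsupp.single P0 1)) (g * E (Finsupp.single P0 1))
      simpa using this
    rw [abs_mul, Nat.abs_cast, abs_mul g, abs_of_nonneg hg0] at h4
    nlinarith
  by_contra hne
  have hpos : 1 ≤ |E D| := Int.one_le_abs hne
  have h5 := key (2 * g * C + 1).toNat
  have h6 : 0 ≤ 2 * g * C := by positivity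
  rw [Int.toNat_of_nonneg (by omega)] at h5
  nlinarith

theorem rigidity (hF : ∃ x : F, Transcendental K x) {Y : Type*} (E : Divisor K F →+ (Y →₀ ℤ))
    (C : ℤ) (hC : ∀ (v : Place K F) (y : Y), |E (Finsupp.single v 1) y| ≤ C)
    (hP : ∀ D ∈ Divisor.principal (K := K) (F := F), E D = 0)
    (D : Divisor K F) (hD : Divisor.degree D = 0) : E D = 0 := by
  ext y
  exact rigidity_int hF ((Finsupp.applyAddHom y).comp E) C (fun v => hC v y)
    (fun D hD => by simp [hP D hD]) D hD

end RL

end Fermat.Agent.S37.II

end
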