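import Fermat.Agent.S37.II.Core.Inertia
import Fermat.Agent.S37.II.Core.Frobenius
import Fermat.Agent.S37.II.Core.Injective
import Fermat.Agent.S37.II.Base
import Fermat.Agent.S37.II.Level
import Fermat.Agent.S37.Assembly
import Fermat.Agent.Lib.Frobenius
import Fermat.Agent.S18.Base.Bases

/-!
# S37, route II: the main theorem (owner helper105)
-/

set_option autoImplicit false

noncomputable section

namespace Fermat.Agent.S37.II

open AlgebraicCurve ModularCurve Fermat.Agent.S24 Fermat.Agent.S18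

theorem exists_redData (N ℓ : ℕ) [NeZero N] (hℓ : ℓ.Prime) (hℓN : ¬ ℓ ∣ N)
    (A : ValuationSubring Kbar) (hA : A.LiesOverPrime ℓ) :
    ∃ (Y : Type) (ρ : Divisor Kbar (FN N) →+ (Y →₀ ℤ)), RedData A N ℓ ρ := by
  haveI : Fact ℓ.Prime := ⟨hℓ⟩
  by_cases h5 : 5 ≤ ℓ
  · obtain ⟨B⟩ := Base.nonempty_baseData_j N ℓ hℓ h5
    exact ⟨_, _, redData_of_base hℓN B A hA⟩
  · have hℓ23 : ℓ = 2 ∨ ℓ = 3 := by
      have h2 := hℓ.two_le
      have h4 : ℓ ≠ 4 := by
        rintro rfl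
        exact absurd hℓ (by norm_num)
      omega
    rcases hℓ23 with rfl | rfl
    · by_cases h3 : 3 ∣ N
      · obtain ⟨B⟩ := Base.nonempty_baseData_h3 N h3
        exact ⟨_, _, redData_of_base hℓN B A hA⟩
      · haveI : NeZero (N * 3) := ⟨mul_ne_zero (NeZero.ne N) (by norm_num)⟩
        have h2 : ¬ 2 ∣ N * 3 := by
          intro h
          exact hℓN ((Nat.Coprime.dvd_mul_right (by norm_num)).mp h)
        obtain ⟨B⟩ := Base.nonempty_baseData_h3 (N * 3) (dvd_mul_left 3 N)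
        exact ⟨_, _, redData_pullback Nat.prime_three h3 ⟨2, by norm_num⟩ hℓ
          (redData_of_base h2 B A hA)⟩
    · by_cases h2 : 2 ∣ N
      · obtain ⟨B⟩ := Base.nonempty_baseData_h2 N h2
        exact ⟨_, _, redData_of_base hℓN B A hA⟩
      · haveI : NeZero (N * 2) := ⟨mul_ne_zero (NeZero.ne N) (by norm_num)⟩
        have h3 : ¬ 3 ∣ N * 2 := by
          intro h
          exact hℓN ((Nat.Coprime.dvd_mul_right (by norm_num)).mp h)
        obtain ⟨B⟩ := Base.nonempty_baseData_h2 (N * 2) (dvd_mul_left 2 N)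
        exact ⟨_, _, redData_pullback Nat.prime_two h2 ⟨1, by norm_num⟩ hℓ
          (redData_of_base h3 B A hA)⟩

/-- **S37.** -/
theorem main (N p : ℕ) [NeZero N] (hcomm : HeckeOperatorsCommuteBar N) :
    letI := ModularCurve.heckeModuleBar N
    ∀ (_ : SMulCommClass (AlgebraicClosure ℚ ≃ₐ[ℚ] AlgebraicClosure ℚ) ModularCurve.HeckeAlg
      (ModularCurve.JZero N)),
      ModularCurve.SpecializationExists (K := ℚ) (L := AlgebraicClosure ℚ) N p
        (ModularCurve.JZero N) := by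
  let _ := ModularCurve.heckeModuleBar N
  intro _ ℓ hℓ hndvd A hA
  have : NeZero ℓ := ⟨hℓ.ne_zero⟩
  have hℓN : ¬ ℓ ∣ N := fun h => hndvd (h.mul_right p)
  have hℓp : ¬ ℓ ∣ p := fun h => hndvd (h.mul_left N)
  obtain ⟨φ, hφ⟩ := Fermat.Agent.Lib.Frobenius.exists_isFrobeniusAt A ℓ hℓ hA
  obtain ⟨Y, ρ, hρ⟩ := exists_redData N ℓ hℓ hℓN A hA
  refine exists_specialization_of_aux p (JZero N) A ℓ φ hℓ hφ (rr ρ)
    (fun σ hσ x => rr_inertia hρ hℓ hA σ hσ x) (fun x => ?_) (fun x hx hr => ?_)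
  · have e : (heckeGen (⟨ℓ, hℓ⟩ : Nat.Primes) • (φ • x) : JZero N) =
        heckeOperatorAlong Kbar N ℓ (φ • x) := heckeModuleBar_heckeGen_smul hcomm ⟨ℓ, hℓ⟩ (φ • x)
    have h := rr_frobenius hρ hℓ hℓN hA φ hφ x
    rw [← e] at h
    exact h
  · obtain ⟨n, hn⟩ := hx
    exact rr_injective hρ (p ^ n) (fun h => hℓp (hℓ.dvd_of_dvd_pow h)) x hn hr

end Fermat.Agent.S37.II

end
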