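import Fermat.Agent.S37.II.Defs
import Fermat.Agent.S18.Descent.HorizontalBC

/-!
# S37, route II: definitions for the descent to number fields (owner helper105)
-/

set_option autoImplicit false

noncomputable section

namespace Fermat.Agent.S37.II

open AlgebraicCurve ModularCurve Fermat.Agent.S24 Fermat.Agent.S18 IntermediateField

/-- the embedding `F_{K₁} → F_{ℚ̄}` -/
abbrev tb (M : ℕ) (K₁ : IntermediateField ℚ Kbar) : FK K₁ M →+* FN M :=
  Descent.toBar (modularFunctionFieldFull M) K₁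

/-- the restriction of `A` to `K₁` -/
abbrev rs (A : ValuationSubring Kbar) (K₁ : IntermediateField ℚ Kbar) : ValuationSubring K₁ :=
  A.comap (algebraMap K₁ Kbar)

/-- the place `P` of `F_{ℚ̄}` lies over the RATIONAL place `w` of `F_{K₁}`, and is unramified. -/
structure RatOver (M : ℕ) (K₁ : IntermediateField ℚ Kbar) (P : Pl M)
    (w : Place K₁ (FK K₁ M)) : Prop where
  placeOver : Descent.PlaceOver (tb M K₁) P w
  rat : IsRat w
  ord_eq : ∀ g : FK K₁ M, P.ord (tb M K₁ g) = w.ord g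
  val_eq : ∀ g : FK K₁ M, 0 ≤ w.ord g → algebraMap K₁ Kbar (val w g) = val P (tb M K₁ g)

/-- "for all sufficiently large number fields" -/
def Ev (p : IntermediateField ℚ Kbar → Prop) : Prop :=
  ∃ K₀ : IntermediateField ℚ Kbar, FiniteDimensional ℚ K₀ ∧ ∀ K₁, K₀ ≤ K₁ → p K₁

/-- every element of the Gauss valuation ring is a quotient of integral series -/
def HasQuot (A : ValuationSubring Kbar) (M : ℕ) (K₁ : IntermediateField ℚ Kbar)
    (Ow : ValuationSubring (FK K₁ M)) : Prop :=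
  ∀ u ∈ Ow, ∃ (P Q : LaurentSeries (rs A K₁))
    (hP : coeffMap (rs A K₁).subtype P ∈ FK K₁ M)
    (hQ : coeffMap (rs A K₁).subtype Q ∈ FK K₁ M),
    coeffMap (IsLocalRing.residue (rs A K₁)) Q ≠ 0 ∧ u * (⟨_, hQ⟩ : FK K₁ M) = ⟨_, hP⟩

/-- what KL-A delivers for the coordinate `B` and the valuation ring `A` -/
def GoodAt (A : ValuationSubring Kbar) {M ℓ : ℕ} (B : BaseData M ℓ) : Prop :=
  ∀ (K₁ : IntermediateField ℚ Kbar), FiniteDimensional ℚ K₁ →
    ∃ (ϖ₁ : K₁) (Ow : ValuationSubring (FK K₁ M)),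
      GoodModel (rs A K₁) (B.xK K₁) ϖ₁ Ow ∧ IsGauss (rs A K₁) ϖ₁ (FK K₁ M) Ow ∧
        HasQuot A M K₁ Ow

end Fermat.Agent.S37.II

end
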