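import Fermat.Agent.S37.II.RedData
import Fermat.Agent.S37.II.DefsMod
import Fermat.Agent.S24.FFBasic
import Fermat.Agent.GAL.KLStatement

/-!
# S37, route II: `RedData` for `redDiv A x` from `redDiv (div f) = 0 ↔ IsOne f` and `KL`
(the formal part of `S37/II/Base.lean`; no unproved input)
-/

set_option autoImplicit false

noncomputable section

namespace Fermat.Agent.S37.II

open AlgebraicCurve ModularCurve Fermat.Agent.S24 Fermat.Agent.S18

/-- the formal core of `redData_of_base` -/
theorem redData_of_isOne_iff {M ℓ : ℕ} (x : FN M) (A : ValuationSubring Kbar)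
    (h1 : ∀ (e : FN M), IsOne A M e → ∀ D : Divisor Kbar (FN M), (∀ v, D v = v.ord e) →
      redDiv A x D = 0)
    (h0 : ∀ (f : FN M), f ≠ 0 → ∀ D : Divisor Kbar (FN M), (∀ v, D v = v.ord f) →
      redDiv A x D = 0 → IsOne A M f)
    (hKL : ∀ n : ℕ, ¬ ℓ ∣ n → Fermat.Agent.GAL.KL M A n) :
    RedData A M ℓ (redDiv A x) where
  bdd := by
    classical
    refine ⟨1, fun v y => ?_⟩
    rw [redDiv_single, Finsupp.single_apply]
    split_ifs <;> simp
  one := fun e D he hD => h1 e he D hD
  inj := by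
    intro m hm D hD0 hDm
    have hm0 : m ≠ 0 := fun h => hm (h ▸ dvd_zero ℓ)
    obtain ⟨f, hf, hDf⟩ := hDm
    have hred : redDiv A x (m • D) = 0 := by rw [map_nsmul, hD0, smul_zero]
    obtain ⟨c, P, Q, hP, hQ, hc, hPQ, hQ0, hfc⟩ := h0 f hf (m • D) hDf hred
    set u : FN M := (⟨coeffMap A.subtype P, hP⟩ : modularFunctionFieldBar M) /
      ⟨coeffMap A.subtype Q, hQ⟩ with hu
    have hc' : algebraMap Kbar (FN M) c ≠ 0 := by simpa using hc
    have hu0 : u ≠ 0 := by
      rintro h
      rw [h, mul_zero] at hfc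
      exact hf hfc
    have hord : ∀ v : Pl M, v.ord u = m * D v := by
      intro v
      have h1 := hDf v
      rw [hfc, v.ord_mul hc' hu0, FF.ord_algebraMap, zero_add] at h1
      rw [← h1]
      simp
    obtain ⟨w, hw⟩ := hKL m hm P Q hP hQ hPQ hQ0 (fun v => ⟨D v, hord v⟩)
    have hw0 : w ≠ 0 := by
      rintro rfl
      rw [zero_pow hm0] at hw
      exact hu0 hw
    refine ⟨w, hw0, fun v => ?_⟩
    have h2 : v.ord u = m * v.ord w := by
      rw [hu, hw, FF.ord_pow]
    have h3 : (m : ℤ) * D v = m * v.ord w := by rw [← hord v, h2]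
    exact mul_left_cancel₀ (by exact_mod_cast hm0) h3

end Fermat.Agent.S37.II

end
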