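import Mathlib

/-!
# S37 route II, block TR: `Finsupp.mapDomain` and fibres (Mathlib only)
-/

set_option autoImplicit false

namespace Fermat.Agent.S37.II

section TR

theorem mapDomain_apply_eq_sum {α β : Type*} [DecidableEq β] (f : α → β) (D : α →₀ ℤ) (y : β) :
    Finsupp.mapDomain f D y = ∑ a ∈ D.support.filter (fun a => f a = y), D a := by
  rw [Finsupp.mapDomain, Finsupp.sum_apply, Finsupp.sum, Finset.sum_filter]
  refine Finset.sum_congr rfl fun a _ => ?_
  rw [Finsupp.single_apply]

private theorem mapDomain_eq_zero_of_fiber {α β γ : Type*} (f : α → β) (g : α → γ) (D : α →₀ ℤ)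
    (h : ∀ a ∈ D.support, ∀ a' ∈ D.support, f a = f a' ↔ g a = g a')
    (hf : Finsupp.mapDomain f D = 0) : Finsupp.mapDomain g D = 0 := by
  classical
  ext z
  rw [mapDomain_apply_eq_sum, Finsupp.coe_zero, Pi.zero_apply]
  rcases (D.support.filter (fun a => g a = z)).eq_empty_or_nonempty with he | ⟨a0, ha0⟩
  · rw [he, Finset.sum_empty]
  · rw [Finset.mem_filter] at ha0
    have hset : D.support.filter (fun a => g a = z) = D.support.filter (fun a => f a = f a0) := by
      ext a
      simp only [Finset.mem_filter]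
      constructor
      · rintro ⟨ha, hga⟩
        exact ⟨ha, (h a ha a0 ha0.1).2 (hga.trans ha0.2.symm)⟩
      · rintro ⟨ha, hfa⟩
        exact ⟨ha, ((h a ha a0 ha0.1).1 hfa).trans ha0.2⟩
    have h2 := mapDomain_apply_eq_sum f D (f a0)
    rw [hf, Finsupp.coe_zero, Pi.zero_apply] at h2
    rw [hset]
    convert h2.symm

theorem mapDomain_eq_zero_iff_of_fiber {α β γ : Type*} (f : α → β) (g : α → γ) (D : α →₀ ℤ)
    (h : ∀ a ∈ D.support, ∀ a' ∈ D.support, f a = f a' ↔ g a = g a') :
    Finsupp.mapDomain f D = 0 ↔ Finsupp.mapDomain g D = 0 :=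
  ⟨mapDomain_eq_zero_of_fiber f g D h,
    mapDomain_eq_zero_of_fiber g f D fun a ha a' ha' => (h a ha a' ha').symm⟩

end TR

end Fermat.Agent.S37.II
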