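import Fermat.Agent.S37.II.RedData
import Fermat.Agent.S37.C0.Descent

/-!
# S37, route II: lowering the level (`RedData` at level `N r` gives `RedData` at level `N`)
(the formal part of `S37/II/Level.lean`; the only input is the statement of `isOne_alpha`)
-/

set_option autoImplicit false

noncomputable section

namespace Fermat.Agent.S37.II

open AlgebraicCurve ModularCurve Fermat.Agent.S24
open Fermat.Agent.S37.HeckeInputs

theorem pullbackAlong_apply_eq_ord {K F F' : Type*} [Field K] [Field F] [Field F'] [Algebra K F]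
    [Algebra K F'] [HasPrincipalDivisors K F'] (φ : F →ₐ[K] F') (hφ : φ.toRingHom.IsIntegral)
    {f : F} {D : Divisor K F} (hD : ∀ v : Place K F, D v = v.ord f) (w : Place K F') :
    Divisor.pullbackAlong φ hφ D w = w.ord (φ f) := by
  let _ := algebraAlong φ
  have := isScalarTower_along φ
  have := isIntegral_along φ hφ
  exact Divisor.pullback_apply_eq_ord hD w

/-- the formal core of `redData_pullback` -/
theorem redData_pullback_of {A : ValuationSubring Kbar} {N ℓ r : ℕ} [NeZero N] [NeZero r]
    (hr : r.Prime) (hrN : ¬ r ∣ N) (hpow : ∃ k, r + 1 = ℓ ^ k) (hℓ : ℓ.Prime) {Y : Type*}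
    {ρ : Divisor Kbar (FN (N * r)) →+ (Y →₀ ℤ)} (h : RedData A (N * r) ℓ ρ)
    (hα : ∀ e : FN N, IsOne A N e → IsOne A (N * r) (heckeAlphaBar Kbar N r e)) :
    RedData A N ℓ (ρ.comp (Divisor.pullbackAlong (heckeAlphaBar Kbar N r) (alpha_integral N r))) where
  bdd := by
    obtain ⟨C, hC⟩ := h.bdd
    refine ⟨finrankAlong Kbar (heckeAlphaBar Kbar N r) * C, fun v y => ?_⟩
    rw [AddMonoidHom.comp_apply, Divisor.pullbackAlong_single, map_sum, Finsupp.finsetSum_apply,
      ← descent_sum_ramificationIndexAlong (heckeAlphaBar Kbar N r) (alpha_finite N r)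
        (alpha_integral N r) v, Finset.sum_mul]
    refine (Finset.abs_sum_le_sum_abs _ _).trans (Finset.sum_le_sum fun W _ => ?_)
    have e1 : (Finsupp.single W (1 * (W.ramificationIndexAlong (heckeAlphaBar Kbar N r) : ℤ)) :
        Divisor Kbar (FN (N * r))) =
        (W.ramificationIndexAlong (heckeAlphaBar Kbar N r) : ℤ) • Finsupp.single W 1 := by
      rw [Finsupp.smul_single, smul_eq_mul, mul_one, one_mul]
    rw [e1, map_zsmul, Finsupp.smul_apply, smul_eq_mul, abs_mul, Nat.abs_cast]
    exact mul_le_mul_of_nonneg_left (hC W y) (Nat.cast_nonneg _)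
  one := by
    intro e D he hD
    exact h.one (heckeAlphaBar Kbar N r e) _ (hα e he)
      (pullbackAlong_apply_eq_ord (heckeAlphaBar Kbar N r) (alpha_integral N r) hD)
  inj := by
    intro m hm D hD hmD
    have h2 : m • (Divisor.pullbackAlong (heckeAlphaBar Kbar N r) (alpha_integral N r) D) ∈
        Divisor.principal (K := Kbar) (F := FN (N * r)) := by
      rw [← map_nsmul]
      exact Divisor.isPrincipal_pullbackAlong _ _ hmD
    have h3 := h.inj m hm _ hD h2
    have h4 : Divisor.pushforwardAlong (heckeAlphaBar Kbar N r) (alpha_integral N r)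
        (Divisor.pullbackAlong (heckeAlphaBar Kbar N r) (alpha_integral N r) D) ∈
        Divisor.principal (K := Kbar) (F := FN N) :=
      Divisor.isPrincipal_pushforwardAlong _ _ (alpha_finite N r) (alpha_normFormula N r) h3
    rw [descent_pushforward_pullback (heckeAlphaBar Kbar N r) (alpha_finite N r)
      (alpha_integral N r) D, descent_finrankAlong N r hr hrN] at h4
    obtain ⟨k, hk⟩ := hpow
    refine descent_mem_of_coprime _ (a := r + 1) (b := m) ?_ h4 hmD
    rw [hk]
    exact Nat.Coprime.pow_left k ((Nat.Prime.coprime_iff_not_dvd hℓ).2 hm)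

end Fermat.Agent.S37.II

end
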