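import Fermat.Agent.S37.II.Defs

/-!
# S37, route II: the abstract reduction datum `ρ : Div(X₀(N)) → ℤ[Y]` (owner helper105)
-/

set_option autoImplicit false

noncomputable section

namespace Fermat.Agent.S37.II

open AlgebraicCurve ModularCurve Fermat.Agent.S24

/-- What is needed of a "reduction of divisors" `ρ`:
* it is bounded on places,
* it kills the divisors of the functions congruent to a constant,
* a divisor killed by `ρ` with a principal prime-to-`ℓ` multiple is principal. -/
structure RedData (A : ValuationSubring Kbar) (N ℓ : ℕ) {Y : Type*}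
    (ρ : Divisor Kbar (FN N) →+ (Y →₀ ℤ)) : Prop where
  bdd : ∃ C : ℤ, ∀ (v : Place Kbar (FN N)) (y : Y), |ρ (Finsupp.single v 1) y| ≤ C
  one : ∀ (e : FN N) (D : Divisor Kbar (FN N)), IsOne A N e → (∀ v, D v = v.ord e) → ρ D = 0
  inj : ∀ m : ℕ, ¬ ℓ ∣ m → ∀ D : Divisor Kbar (FN N), ρ D = 0 →
    (m • D) ∈ Divisor.principal (K := Kbar) (F := FN N) →
      D ∈ Divisor.principal (K := Kbar) (F := FN N)

variable {N : ℕ} {Y : Type*} (ρ : Divisor Kbar (FN N) →+ (Y →₀ ℤ))

/-- images of principal divisors -/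
def prin : AddSubgroup (Y →₀ ℤ) := (Divisor.principal (K := Kbar) (F := FN N)).map ρ

/-- the auxiliary group -/
abbrev Gr : Type _ := (Y →₀ ℤ) ⧸ prin ρ

/-- the auxiliary map `J₀(N) → Gr ρ` -/
def rr : JZero N →+ Gr ρ :=
  QuotientAddGroup.lift _
    ((QuotientAddGroup.mk' (prin ρ)).comp
      (ρ.comp (Divisor.degZero (K := Kbar) (F := FN N)).subtype))
    (by
      rintro ⟨D, hD0⟩ hD
      rw [AddSubgroup.mem_addSubgroupOf] at hD
      show (QuotientAddGroup.mk' (prin ρ)) (ρ D) = 0
      rw [QuotientAddGroup.mk'_apply, QuotientAddGroup.eq_zero_iff]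
      exact ⟨D, hD, rfl⟩)

theorem rr_mk (D : Divisor.degZero (K := Kbar) (F := FN N)) :
    rr ρ (Pic0.mk D) = QuotientAddGroup.mk (ρ (D : Divisor Kbar (FN N))) := rfl

end Fermat.Agent.S37.II

end
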